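/-
S48 (Deligne–Serre), (P5) Chebotarev up to inversion, Step 1 (analytic part), helper61.

Let `cls : Ideal (𝓞 E) → G` be a generalised ideal class map of modulus `m` (`F4Ray.RayClassMap`)
with values in a finite abelian group `G`, and
      `D_a(s) = ∑_{𝔮 ∤ m prime, cls 𝔮 = a} N𝔮^(-s)`.
If the trivial class has (lower) logarithmic density `≥ 1/|G|`, then for every `a`
      `D_a(s) + D_{a⁻¹}(s) = (2/|G|) log (1/(s-1)) + O(1)`     (`s → 1⁺`).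
Only the BOUND `|L(s, ψ ∘ cls)| ≤ B` on `(1, 2]` (`F4Ray.rayLBound`) is used: the real parts of
`∑ ψ(cls 𝔮) N𝔮^(-s)` are bounded, and real parts are enough for `D_a + D_{a⁻¹}`.
-/
import Mathlib
import Fermat.Agent.F4.Ray.Main

set_option autoImplicit false
set_option linter.unusedSectionVars false
set_option linter.style.haveILetI false

open NumberField IsDedekindDomain Filter Topology
open scoped nonZeroDivisors

namespace Fermat.Agent.S48Cheb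

open Fermat.Agent.FrobDensity Fermat.Agent.S14An Fermat.Agent.F4Ray

/-! ### an elementary inequality -/

/-- `‖1 - z‖ ≤ exp (- re z + ‖z‖² / 2)`. -/
theorem norm_one_sub_le_exp (z : ℂ) : ‖1 - z‖ ≤ Real.exp (-z.re + ‖z‖ ^ 2 / 2) := by
  have h1 : ‖1 - z‖ ^ 2 = 1 - 2 * z.re + ‖z‖ ^ 2 := by
    rw [Complex.sq_norm, Complex.sq_norm, Complex.normSq_apply, Complex.normSq_apply]
    simp only [Complex.sub_re, Complex.one_re, Complex.sub_im, Complex.one_im, zero_sub]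
    ring
  have h2 : ‖1 - z‖ ^ 2 ≤ Real.exp (-2 * z.re + ‖z‖ ^ 2) := by
    rw [h1]
    have := Real.add_one_le_exp (-2 * z.re + ‖z‖ ^ 2)
    linarith
  have h3 : Real.exp (-2 * z.re + ‖z‖ ^ 2) = Real.exp (-z.re + ‖z‖ ^ 2 / 2) ^ 2 := by
    rw [← Real.exp_nat_mul]
    congr 1
    push_cast
    ring
  rw [h3] at h2
  exact (pow_le_pow_iff_left₀ (norm_nonneg _) (Real.exp_pos _).le two_ne_zero).mp h2

/-! ### finite Fourier analysis with real parts -/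

section abstract

variable {G : Type} [CommGroup G] [Fintype G] [Fintype (G →* ℂˣ)]

theorem norm_char_eq_one (ψ : G →* ℂˣ) (g : G) : ‖((ψ g : ℂˣ) : ℂ)‖ = 1 :=
  norm_char_eq_one' ψ g

open Classical in
/-- orthogonality of the characters of a finite abelian group. -/
theorem sum_char_apply (g : G) :
    ∑ ψ : G →* ℂˣ, ((ψ g : ℂˣ) : ℂ) = if g = 1 then (Fintype.card G : ℂ) else 0 := by
  haveI : NeZero ((Monoid.exponent G : ℕ) : ℂ) :=
    ⟨by exact_mod_cast Monoid.exponent_ne_zero_of_finite⟩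
  split_ifs with h
  · subst h
    simp only [map_one, Units.val_one, Finset.sum_const, Finset.card_univ, nsmul_eq_mul, mul_one]
    have := CommGroup.card_monoidHom_of_hasEnoughRootsOfUnity G ℂ
    rw [Nat.card_eq_fintype_card, Nat.card_eq_fintype_card] at this
    rw [this]
  · obtain ⟨φ, hφ⟩ := CommGroup.exists_apply_ne_one_of_hasEnoughRootsOfUnity G ℂ h
    have hsum : (∑ χ : G →* ℂˣ, ((χ g : ℂˣ) : ℂ)) =
        ((φ g : ℂˣ) : ℂ) * ∑ χ : G →* ℂˣ, ((χ g : ℂˣ) : ℂ) := by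
      rw [Finset.mul_sum]
      refine (Fintype.sum_equiv (Equiv.mulLeft φ) _ _ fun χ => ?_).symm
      simp
    have hne : ((φ g : ℂˣ) : ℂ) - 1 ≠ 0 := by
      intro h0
      apply hφ
      ext
      simpa [sub_eq_zero] using h0
    have : (((φ g : ℂˣ) : ℂ) - 1) * ∑ χ : G →* ℂˣ, ((χ g : ℂˣ) : ℂ) = 0 := by
      rw [sub_mul, one_mul, ← hsum, sub_self]
    rcases mul_eq_zero.mp this with h1 | h1
    · exact absurd h1 hne
    · exact h1

variable {ι : Type*} (c : ι → G) (x : ι → ℝ)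

open Classical in
/-- `D_a = ∑_{c i = a} x i`. -/
noncomputable def clsSum (a : G) : ℝ := ∑' i, if c i = a then x i else 0

/-- `S_ψ = ∑ ψ (c i) x i`. -/
noncomputable def chSum (ψ : G →* ℂˣ) : ℂ := ∑' i, ((ψ (c i) : ℂˣ) : ℂ) * ((x i : ℝ) : ℂ)

variable {x}

theorem summable_char_mul (hx : Summable x) (hx0 : ∀ i, 0 ≤ x i) (z : ℂ) (ψ : G →* ℂˣ) :
    Summable fun i => z * (((ψ (c i) : ℂˣ) : ℂ) * ((x i : ℝ) : ℂ)) := by
  refine Summable.mul_left z ?_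
  refine Summable.of_norm_bounded hx fun i => ?_
  rw [norm_mul, norm_char_eq_one, one_mul, Complex.norm_real, Real.norm_of_nonneg (hx0 i)]

theorem chSum_one : chSum c x (1 : G →* ℂˣ) = ((∑' i, x i : ℝ) : ℂ) := by
  unfold chSum
  rw [Complex.ofReal_tsum]
  refine tsum_congr fun i => ?_
  simp

open Classical in
/-- Fourier inversion. -/
theorem sum_char_mul_chSum (hx : Summable x) (hx0 : ∀ i, 0 ≤ x i) (a : G) :
    ∑ ψ : G →* ℂˣ, ((ψ a⁻¹ : ℂˣ) : ℂ) * chSum c x ψ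
      = (Fintype.card G : ℂ) * ((clsSum c x a : ℝ) : ℂ) := by
  unfold chSum clsSum
  have h1 : ∀ ψ : G →* ℂˣ, ((ψ a⁻¹ : ℂˣ) : ℂ) * ∑' i, ((ψ (c i) : ℂˣ) : ℂ) * ((x i : ℝ) : ℂ)
      = ∑' i, ((ψ a⁻¹ : ℂˣ) : ℂ) * (((ψ (c i) : ℂˣ) : ℂ) * ((x i : ℝ) : ℂ)) :=
    fun ψ => (tsum_mul_left).symm
  simp only [h1]
  rw [← Summable.tsum_finsetSum (fun ψ _ => summable_char_mul c hx hx0 _ ψ), Complex.ofReal_tsum,
    ← tsum_mul_left]
  refine tsum_congr fun i => ?_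
  have h2 : ∀ ψ : G →* ℂˣ, ((ψ a⁻¹ : ℂˣ) : ℂ) * (((ψ (c i) : ℂˣ) : ℂ) * ((x i : ℝ) : ℂ))
      = ((ψ (a⁻¹ * c i) : ℂˣ) : ℂ) * ((x i : ℝ) : ℂ) := by
    intro ψ
    rw [map_mul, Units.val_mul]
    ring
  simp only [h2]
  rw [← Finset.sum_mul, sum_char_apply]
  by_cases h : c i = a
  · have h' : a⁻¹ * c i = 1 := by rw [h, inv_mul_cancel]
    rw [if_pos h, if_pos h']
  · have h' : ¬ a⁻¹ * c i = 1 := fun h' => h (inv_mul_eq_one.mp h').symm
    rw [if_neg h, if_neg h', Complex.ofReal_zero, zero_mul, mul_zero]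

theorem char_inv_eq_conj (ψ : G →* ℂˣ) (a : G) :
    ((ψ a⁻¹ : ℂˣ) : ℂ) = (starRingEnd ℂ) ((ψ a : ℂˣ) : ℂ) := by
  rw [map_inv, Units.val_inv_eq_inv_val, Complex.inv_eq_conj (norm_char_eq_one ψ a)]

/-- the identity between `D_a + D_{a⁻¹}` and the real parts of the `S_ψ`. -/
theorem card_mul_clsSum_add_inv (hx : Summable x) (hx0 : ∀ i, 0 ≤ x i) (a : G) :
    (Fintype.card G : ℝ) * (clsSum c x a + clsSum c x a⁻¹)
      = ∑ ψ : G →* ℂˣ, 2 * ((ψ a : ℂˣ) : ℂ).re * (chSum c x ψ).re := by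
  have h1 := sum_char_mul_chSum c hx hx0 a
  have h2 := sum_char_mul_chSum c hx hx0 a⁻¹
  rw [inv_inv] at h2
  have h3 : ((Fintype.card G : ℂ) * ((clsSum c x a : ℝ) : ℂ)).re
      + ((Fintype.card G : ℂ) * ((clsSum c x a⁻¹ : ℝ) : ℂ)).re
      = (Fintype.card G : ℝ) * (clsSum c x a + clsSum c x a⁻¹) := by
    rw [← Complex.ofReal_natCast, ← Complex.ofReal_mul, ← Complex.ofReal_mul,
      Complex.ofReal_re, Complex.ofReal_re]
    ring
  rw [← h3, ← h1, ← h2, Complex.re_sum, Complex.re_sum, ← Finset.sum_add_distrib]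
  refine Finset.sum_congr rfl fun ψ _ => ?_
  rw [char_inv_eq_conj, Complex.mul_re, Complex.mul_re, Complex.conj_re, Complex.conj_im]
  ring

/-- **The real-part principle.**  If the trivial class has at least its share, the total mass is
`Lg + O(1)` and the real parts of the nontrivial character sums are bounded above, then
`D_a + D_{a⁻¹} = 2 Lg / |G| + O(1)`. -/
theorem abs_clsSum_add_inv_sub_le (hx : Summable x) (hx0 : ∀ i, 0 ≤ x i) {Lg B₀ C₁ : ℝ}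
    {U : (G →* ℂˣ) → ℝ} (h1 : Lg / (Fintype.card G : ℝ) - B₀ ≤ clsSum c x 1)
    (h2 : |∑' i, x i - Lg| ≤ C₁) (h3 : ∀ ψ : G →* ℂˣ, ψ ≠ 1 → (chSum c x ψ).re ≤ U ψ) (a : G) :
    |clsSum c x a + clsSum c x a⁻¹ - 2 * Lg / (Fintype.card G : ℝ)|
      ≤ 2 * (C₁ + (Fintype.card (G →* ℂˣ) : ℝ) *
          ((Fintype.card G : ℝ) * |B₀| + C₁ + ∑ ψ : G →* ℂˣ, |U ψ|)) / (Fintype.card G : ℝ) := by
  classical
  have hn : (0 : ℝ) < (Fintype.card G : ℝ) := by exact_mod_cast Fintype.card_pos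
  set n : ℝ := (Fintype.card G : ℝ) with hndef
  set R : (G →* ℂˣ) → ℝ := fun ψ => (chSum c x ψ).re with hR
  set SU : ℝ := ∑ ψ : G →* ℂˣ, |U ψ| with hSU
  set V : ℝ := n * |B₀| + C₁ + SU with hV
  have hC₁ : 0 ≤ C₁ := (abs_nonneg _).trans h2
  have hSU0 : 0 ≤ SU := Finset.sum_nonneg fun ψ _ => abs_nonneg _
  have hV0 : 0 ≤ V := by positivity
  have hR1 : R 1 = ∑' i, x i := by
    simp only [hR]
    rw [chSum_one c, Complex.ofReal_re]
  -- `n D_1 = ∑ R`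
  have hsum : n * clsSum c x 1 = ∑ ψ : G →* ℂˣ, R ψ := by
    have := card_mul_clsSum_add_inv c hx hx0 (1 : G)
    rw [inv_one] at this
    have h5 : ∑ ψ : G →* ℂˣ, 2 * ((ψ (1 : G) : ℂˣ) : ℂ).re * (chSum c x ψ).re
        = 2 * ∑ ψ : G →* ℂˣ, R ψ := by
      rw [Finset.mul_sum]
      refine Finset.sum_congr rfl fun ψ _ => ?_
      simp [hR]
    rw [h5] at this
    linarith
  have hUle : ∀ ψ : G →* ℂˣ, |U ψ| ≤ SU := fun ψ =>
    Finset.single_le_sum (f := fun ψ : G →* ℂˣ => |U ψ|) (fun ψ _ => abs_nonneg _)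
      (Finset.mem_univ ψ)
  -- lower bound for the real parts
  have hlow : ∀ ψ₀ : G →* ℂˣ, ψ₀ ≠ 1 → -V ≤ R ψ₀ := by
    intro ψ₀ hψ₀
    have h4 : ∑ ψ : G →* ℂˣ, R ψ = R ψ₀ + ∑ ψ ∈ Finset.univ.erase ψ₀, R ψ :=
      (Finset.add_sum_erase Finset.univ R (Finset.mem_univ ψ₀)).symm
    have h1mem : (1 : G →* ℂˣ) ∈ Finset.univ.erase ψ₀ :=
      Finset.mem_erase.mpr ⟨fun h => hψ₀ h.symm, Finset.mem_univ _⟩
    have h5 : ∑ ψ ∈ Finset.univ.erase ψ₀, R ψ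
        = R 1 + ∑ ψ ∈ (Finset.univ.erase ψ₀).erase 1, R ψ :=
      (Finset.add_sum_erase _ R h1mem).symm
    have h6 : ∑ ψ ∈ (Finset.univ.erase ψ₀).erase 1, R ψ
        ≤ ∑ ψ ∈ (Finset.univ.erase ψ₀).erase 1, |U ψ| := by
      refine Finset.sum_le_sum fun ψ hψ => ?_
      exact (h3 ψ (Finset.ne_of_mem_erase hψ)).trans (le_abs_self _)
    have h7 : ∑ ψ ∈ (Finset.univ.erase ψ₀).erase 1, |U ψ| ≤ SU :=
      Finset.sum_le_sum_of_subset_of_nonneg (Finset.subset_univ _) fun ψ _ _ => abs_nonneg _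
    have h8 : Lg - n * B₀ ≤ n * clsSum c x 1 := by
      have := mul_le_mul_of_nonneg_left h1 hn.le
      rw [mul_sub, mul_div_cancel₀ _ hn.ne'] at this
      exact this
    have h9 : n * B₀ ≤ n * |B₀| := mul_le_mul_of_nonneg_left (le_abs_self _) hn.le
    rw [abs_le] at h2
    rw [hR1] at h5
    simp only [hV]
    linarith [h2.1, h2.2]
  have habs : ∀ ψ : G →* ℂˣ, ψ ≠ 1 → |R ψ| ≤ V := by
    intro ψ hψ
    rw [abs_le]
    refine ⟨hlow ψ hψ, (h3 ψ hψ).trans ((le_abs_self _).trans ?_)⟩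
    have := hUle ψ
    have h9 : 0 ≤ n * |B₀| := by positivity
    simp only [hV]
    linarith
  -- the main identity
  have hmain := card_mul_clsSum_add_inv c hx hx0 a
  have hsplit : ∑ ψ : G →* ℂˣ, 2 * ((ψ a : ℂˣ) : ℂ).re * (chSum c x ψ).re
      = 2 * R 1 + ∑ ψ ∈ Finset.univ.erase (1 : G →* ℂˣ), 2 * ((ψ a : ℂˣ) : ℂ).re * R ψ := by
    rw [← Finset.add_sum_erase Finset.univ _ (Finset.mem_univ (1 : G →* ℂˣ))]
    simp [hR]
  have hrest : |∑ ψ ∈ Finset.univ.erase (1 : G →* ℂˣ), 2 * ((ψ a : ℂˣ) : ℂ).re * R ψ|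
      ≤ (Fintype.card (G →* ℂˣ) : ℝ) * (2 * V) := by
    calc |∑ ψ ∈ Finset.univ.erase (1 : G →* ℂˣ), 2 * ((ψ a : ℂˣ) : ℂ).re * R ψ|
        ≤ ∑ ψ ∈ Finset.univ.erase (1 : G →* ℂˣ), |2 * ((ψ a : ℂˣ) : ℂ).re * R ψ| :=
          Finset.abs_sum_le_sum_abs _ _
      _ ≤ ∑ _ψ ∈ Finset.univ.erase (1 : G →* ℂˣ), 2 * V := by
          refine Finset.sum_le_sum fun ψ hψ => ?_
          rw [abs_mul, abs_mul, abs_of_pos (by norm_num : (0 : ℝ) < 2)]
          have h10 : |((ψ a : ℂˣ) : ℂ).re| ≤ 1 := by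
            have := Complex.abs_re_le_norm ((ψ a : ℂˣ) : ℂ)
            rwa [norm_char_eq_one] at this
          have h11 := habs ψ (Finset.ne_of_mem_erase hψ)
          calc 2 * |((ψ a : ℂˣ) : ℂ).re| * |R ψ| ≤ 2 * 1 * V := by
                refine mul_le_mul (mul_le_mul_of_nonneg_left h10 (by norm_num)) h11
                  (abs_nonneg _) (by norm_num)
            _ = 2 * V := by ring
      _ = ((Finset.univ.erase (1 : G →* ℂˣ)).card : ℝ) * (2 * V) := by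
          rw [Finset.sum_const, nsmul_eq_mul]
      _ ≤ (Fintype.card (G →* ℂˣ) : ℝ) * (2 * V) := by
          refine mul_le_mul_of_nonneg_right ?_ (by positivity)
          exact_mod_cast Finset.card_le_univ _
  rw [hsplit, hR1] at hmain
  have hfin : clsSum c x a + clsSum c x a⁻¹ - 2 * Lg / n
      = (2 * (∑' i, x i - Lg)
          + ∑ ψ ∈ Finset.univ.erase (1 : G →* ℂˣ), 2 * ((ψ a : ℂˣ) : ℂ).re * R ψ) / n := by
    field_simp
    linarith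
  rw [hfin, abs_div, abs_of_pos hn]
  refine div_le_div_of_nonneg_right ?_ hn.le
  calc |2 * (∑' i, x i - Lg)
        + ∑ ψ ∈ Finset.univ.erase (1 : G →* ℂˣ), 2 * ((ψ a : ℂˣ) : ℂ).re * R ψ|
      ≤ |2 * (∑' i, x i - Lg)|
        + |∑ ψ ∈ Finset.univ.erase (1 : G →* ℂˣ), 2 * ((ψ a : ℂˣ) : ℂ).re * R ψ| :=
        abs_add_le _ _
    _ ≤ 2 * C₁ + (Fintype.card (G →* ℂˣ) : ℝ) * (2 * V) := by
        refine add_le_add ?_ hrest
        rw [abs_mul, abs_of_pos (by norm_num : (0 : ℝ) < 2)]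
        exact mul_le_mul_of_nonneg_left h2 (by norm_num)
    _ = 2 * (C₁ + (Fintype.card (G →* ℂˣ) : ℝ) * V) := by ring

end abstract

/-! ### the prime sums of a generalised ideal class map -/

section ray

variable {E : Type} [Field E] [NumberField E] {m : Ideal (𝓞 E)} {G : Type} [CommGroup G]
  [Fintype G] {cls : Ideal (𝓞 E) → G}

open Classical in
/-- the weights `N𝔮^(-s)` of the primes prime to `m`. -/
noncomputable def rayX (E : Type) [Field E] [NumberField E] (m : Ideal (𝓞 E)) (s : ℝ)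
    (𝔮 : HeightOneSpectrum (𝓞 E)) : ℝ :=
  if 𝔮.asIdeal ⊔ m = ⊤ then normWeight E s 𝔮.asIdeal else 0

open Classical in
/-- `D_a(s) = ∑ N𝔮^(-s)` over the primes `𝔮` of `E`, prime to `m`, of class `a`. -/
noncomputable def rayD (E : Type) [Field E] [NumberField E] (m : Ideal (𝓞 E)) {G : Type}
    (cls : Ideal (𝓞 E) → G) (a : G) (s : ℝ) : ℝ :=
  ∑' 𝔮 : HeightOneSpectrum (𝓞 E),
    if 𝔮.asIdeal ⊔ m = ⊤ ∧ cls 𝔮.asIdeal = a then normWeight E s 𝔮.asIdeal else 0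

theorem rayX_nonneg (s : ℝ) (𝔮 : HeightOneSpectrum (𝓞 E)) : 0 ≤ rayX E m s 𝔮 := by
  unfold rayX
  split_ifs
  · exact normWeight_nonneg s _
  · exact le_rfl

theorem rayX_le (s : ℝ) (𝔮 : HeightOneSpectrum (𝓞 E)) :
    rayX E m s 𝔮 ≤ normWeight E s 𝔮.asIdeal := by
  unfold rayX
  split_ifs
  · exact le_rfl
  · exact normWeight_nonneg s _

theorem summable_rayX {s : ℝ} (hs : 1 < s) : Summable (rayX E m s) :=
  Summable.of_nonneg_of_le (rayX_nonneg s) (rayX_le s) (summable_normWeight_prime E hs)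

theorem rayD_eq_clsSum (a : G) (s : ℝ) :
    rayD E m cls a s = clsSum (fun 𝔮 : HeightOneSpectrum (𝓞 E) => cls 𝔮.asIdeal) (rayX E m s) a := by
  classical
  unfold rayD clsSum rayX
  refine tsum_congr fun 𝔮 => ?_
  by_cases h1 : 𝔮.asIdeal ⊔ m = ⊤ <;> by_cases h2 : cls 𝔮.asIdeal = a <;> simp [h1, h2]

theorem chSum_eq_tsum_chWeight (ψ : G →* ℂˣ) (s : ℝ) :
    chSum (fun 𝔮 : HeightOneSpectrum (𝓞 E) => cls 𝔮.asIdeal) (rayX E m s) ψ
      = ∑' 𝔮 : HeightOneSpectrum (𝓞 E), chWeight E m cls ψ s 𝔮.asIdeal := by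
  classical
  unfold chSum rayX
  refine tsum_congr fun 𝔮 => ?_
  by_cases h1 : 𝔮.asIdeal ⊔ m = ⊤
  · rw [if_pos h1, chWeight_of_coprime ψ s 𝔮.ne_bot h1]
  · rw [if_neg h1, chWeight_of_not ψ s (fun h => h1 h.2), Complex.ofReal_zero, mul_zero]

theorem summable_chWeight_prime (ψ : G →* ℂˣ) {s : ℝ} (hs : 1 < s) :
    Summable fun 𝔮 : HeightOneSpectrum (𝓞 E) => chWeight E m cls ψ s 𝔮.asIdeal :=
  Summable.of_norm_bounded (summable_normWeight_prime E hs) fun _ => norm_chWeight_le ψ s _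

/-- the Euler factors: `∏_{𝔭 ∈ T} ‖1 - w 𝔭‖ ≤ exp (- ∑ re w 𝔭 + P₂ / 2)`. -/
theorem prod_norm_one_sub_le (ψ : G →* ℂˣ) {s : ℝ} (hs : 1 < s)
    (T : Finset (HeightOneSpectrum (𝓞 E))) :
    ∏ 𝔭 ∈ T, ‖1 - chWeight E m cls ψ s 𝔭.asIdeal‖
      ≤ Real.exp (-(∑ 𝔭 ∈ T, (chWeight E m cls ψ s 𝔭.asIdeal).re) + primeSum E 2 / 2) := by
  have h1 : ∏ 𝔭 ∈ T, ‖1 - chWeight E m cls ψ s 𝔭.asIdeal‖
      ≤ ∏ 𝔭 ∈ T, Real.exp (-(chWeight E m cls ψ s 𝔭.asIdeal).re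
          + ‖chWeight E m cls ψ s 𝔭.asIdeal‖ ^ 2 / 2) :=
    Finset.prod_le_prod (fun _ _ => norm_nonneg _) fun 𝔭 _ => norm_one_sub_le_exp _
  refine h1.trans ?_
  rw [← Real.exp_sum]
  refine Real.exp_le_exp.mpr ?_
  rw [Finset.sum_add_distrib, Finset.sum_neg_distrib]
  refine add_le_add le_rfl ?_
  rw [← Finset.sum_div]
  refine div_le_div_of_nonneg_right ?_ (by norm_num)
  calc ∑ 𝔭 ∈ T, ‖chWeight E m cls ψ s 𝔭.asIdeal‖ ^ 2
      ≤ ∑ 𝔭 ∈ T, normWeight E 2 𝔭.asIdeal := by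
        refine Finset.sum_le_sum fun 𝔭 _ => ?_
        refine le_trans ?_ (normWeight_sq_le hs.le 𝔭)
        exact pow_le_pow_left₀ (norm_nonneg _) (norm_chWeight_le ψ s _) 2
    _ ≤ primeSum E 2 :=
        (summable_normWeight_prime E (by norm_num : (1 : ℝ) < 2)).sum_le_tsum T
          fun 𝔭 _ => normWeight_nonneg 2 _

/-- **The real parts are bounded above**: for a nontrivial character `ψ` of `G`, the real part
of `∑_𝔮 ψ(cls 𝔮) N𝔮^(-s)` is bounded above on `(1, 2]`. -/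
theorem re_chSum_le (hRC : RayClassMap E m G cls) (ψ : G →* ℂˣ) (hψ : ψ ≠ 1) :
    ∃ U : ℝ, ∀ s : ℝ, 1 < s → s ≤ 2 →
      (chSum (fun 𝔮 : HeightOneSpectrum (𝓞 E) => cls 𝔮.asIdeal) (rayX E m s) ψ).re ≤ U := by
  classical
  obtain ⟨B, hB⟩ := rayLBound E m G cls hRC (fun g => ((ψ g : ℂˣ) : ℂ)) (sum_char_eq_zero ψ hψ)
  refine ⟨Real.log (max B 1) + primeSum E 2 / 2, fun s hs hs2 => ?_⟩
  have hB1 : (0 : ℝ) < max B 1 := lt_of_lt_of_le one_pos (le_max_right _ _)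
  have hL : ‖rayLVal E m cls (fun g => ((ψ g : ℂˣ) : ℂ)) s‖ ≤ max B 1 :=
    (hB s hs hs2).trans (le_max_left _ _)
  rw [chSum_eq_tsum_chWeight]
  set w : HeightOneSpectrum (𝓞 E) → ℂ := fun 𝔮 => chWeight E m cls ψ s 𝔮.asIdeal with hw
  have hsw : Summable w := summable_chWeight_prime ψ hs
  have hfin : ∀ T : Finset (HeightOneSpectrum (𝓞 E)),
      2 - sieveSum (normWeight E s) T
        ≤ max B 1 * Real.exp (-(∑ 𝔭 ∈ T, (w 𝔭).re) + primeSum E 2 / 2) := by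
    intro T
    have h1 := rayEuler hRC ψ hs T
    have h2 := prod_norm_one_sub_le (E := E) (m := m) (cls := cls) ψ hs T
    calc 2 - sieveSum (normWeight E s) T
        ≤ ‖rayLVal E m cls (fun g => ((ψ g : ℂˣ) : ℂ)) s‖ *
            ∏ 𝔭 ∈ T, ‖1 - chWeight E m cls ψ s 𝔭.asIdeal‖ := h1
      _ ≤ max B 1 * Real.exp (-(∑ 𝔭 ∈ T, (w 𝔭).re) + primeSum E 2 / 2) :=
          mul_le_mul hL h2 (Finset.prod_nonneg fun _ _ => norm_nonneg _) hB1.le
  have hlim1 : Tendsto (fun T : Finset (HeightOneSpectrum (𝓞 E)) =>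
      2 - sieveSum (normWeight E s) T) atTop (𝓝 (2 - 1)) :=
    tendsto_const_nhds.sub (tendsto_sieveSum (fun I => normWeight_nonneg s I) (normWeight_top s)
      (summable_normWeight E hs))
  have hre : HasSum (fun 𝔮 => (w 𝔮).re) (∑' 𝔮, w 𝔮).re := Complex.hasSum_re hsw.hasSum
  have hre' : Tendsto (fun T : Finset (HeightOneSpectrum (𝓞 E)) => ∑ 𝔭 ∈ T, (w 𝔭).re) atTop
      (𝓝 (∑' 𝔮, w 𝔮).re) := hre
  have hlim2 : Tendsto (fun T : Finset (HeightOneSpectrum (𝓞 E)) =>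
      max B 1 * Real.exp (-(∑ 𝔭 ∈ T, (w 𝔭).re) + primeSum E 2 / 2)) atTop
      (𝓝 (max B 1 * Real.exp (-(∑' 𝔮, w 𝔮).re + primeSum E 2 / 2))) :=
    tendsto_const_nhds.mul ((Real.continuous_exp.tendsto _).comp
      ((hre'.neg).add_const _))
  have hle : (2 : ℝ) - 1 ≤ max B 1 * Real.exp (-(∑' 𝔮, w 𝔮).re + primeSum E 2 / 2) :=
    le_of_tendsto_of_tendsto' hlim1 hlim2 hfin
  have h3 : Real.log ((2 : ℝ) - 1)
      ≤ Real.log (max B 1 * Real.exp (-(∑' 𝔮, w 𝔮).re + primeSum E 2 / 2)) :=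
    Real.log_le_log (by norm_num) hle
  rw [Real.log_mul hB1.ne' (Real.exp_pos _).ne', Real.log_exp] at h3
  have h4 : Real.log ((2 : ℝ) - 1) = 0 := by norm_num
  rw [h4] at h3
  linarith

/-- the total mass: `∑_{𝔮 ∤ m} N𝔮^(-s) = log (1/(s-1)) + O(1)`. -/
theorem exists_bound_tsum_rayX (hm : m ≠ ⊥) :
    ∃ C δ : ℝ, 0 < δ ∧ ∀ s : ℝ, 1 < s → s < 1 + δ →
      |∑' 𝔮 : HeightOneSpectrum (𝓞 E), rayX E m s 𝔮 - Real.log (1 / (s - 1))| ≤ C := by
  classical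
  obtain ⟨C, δ, hδ, hC⟩ := exists_bound_primeSum_sub_log E
  have hfin : {𝔮 : HeightOneSpectrum (𝓞 E) | 𝔮.asIdeal ∣ m}.Finite := Ideal.finite_factors hm
  set Fm : Finset (HeightOneSpectrum (𝓞 E)) := hfin.toFinset with hFm
  have hFm_mem : ∀ 𝔮 : HeightOneSpectrum (𝓞 E), ¬ 𝔮.asIdeal ⊔ m = ⊤ → 𝔮 ∈ Fm := by
    intro 𝔮 h𝔮
    rw [hFm, Set.Finite.mem_toFinset, Set.mem_ofPred_eq, Ideal.dvd_iff_le]
    have hmax := 𝔮.isMaximal
    have heq := hmax.eq_of_le h𝔮 le_sup_left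
    rw [heq]
    exact le_sup_right
  refine ⟨C + (Fm.card : ℝ), δ, hδ, fun s hs hsδ => ?_⟩
  have h1 := hC s hs hsδ
  set bad : HeightOneSpectrum (𝓞 E) → ℝ := fun 𝔮 =>
    if ¬ 𝔮.asIdeal ⊔ m = ⊤ then normWeight E s 𝔮.asIdeal else 0 with hbad
  have hbad0 : ∀ 𝔮, 0 ≤ bad 𝔮 := by
    intro 𝔮
    simp only [hbad]
    split_ifs <;> first | exact normWeight_nonneg s 𝔮.asIdeal | exact le_rfl
  have hbadle : ∀ 𝔮, bad 𝔮 ≤ normWeight E s 𝔮.asIdeal := by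
    intro 𝔮
    simp only [hbad]
    split_ifs <;> first | exact normWeight_nonneg s 𝔮.asIdeal | exact le_rfl
  have hsbad : Summable bad :=
    Summable.of_nonneg_of_le hbad0 hbadle (summable_normWeight_prime E hs)
  have hbadsum : ∑' 𝔮, bad 𝔮 ≤ (Fm.card : ℝ) := by
    have h2 : ∑' 𝔮, bad 𝔮 = ∑ 𝔮 ∈ Fm, bad 𝔮 := by
      refine tsum_eq_sum (fun 𝔮 h𝔮 => ?_)
      simp only [hbad]
      rw [if_neg]
      intro h
      exact h𝔮 (hFm_mem 𝔮 h)
    rw [h2]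
    calc ∑ 𝔮 ∈ Fm, bad 𝔮 ≤ ∑ _𝔮 ∈ Fm, (1 : ℝ) :=
          Finset.sum_le_sum (fun 𝔮 _ => (hbadle 𝔮).trans (normWeight_prime_lt_one hs.le 𝔮).le)
      _ = (Fm.card : ℝ) := by simp
  have hsplit : primeSum E s = ∑' 𝔮, rayX E m s 𝔮 + ∑' 𝔮, bad 𝔮 := by
    unfold primeSum
    rw [← (summable_rayX hs).tsum_add hsbad]
    refine tsum_congr fun 𝔮 => ?_
    simp only [hbad, rayX]
    by_cases h : 𝔮.asIdeal ⊔ m = ⊤ <;> simp [h]
  have hbadnn : 0 ≤ ∑' 𝔮, bad 𝔮 := tsum_nonneg hbad0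
  rw [abs_le] at h1 ⊢
  constructor <;> linarith [h1.1, h1.2]

/-- **Step 1 (analytic) of Chebotarev up to inversion.**  Let `cls` be a generalised ideal class
map of modulus `m` with values in the finite abelian group `G`.  If the primes of trivial class
have lower logarithmic density `≥ 1/|G|`, then for every `a ∈ G`
`D_a(s) + D_{a⁻¹}(s) = (2/|G|) log (1/(s-1)) + O(1)` as `s → 1⁺`. -/
theorem rayD_add_inv (hRC : RayClassMap E m G cls)
    (htight : ∃ B δ : ℝ, 0 < δ ∧ ∀ s : ℝ, 1 < s → s < 1 + δ →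
      (1 / (Fintype.card G : ℝ)) * Real.log (1 / (s - 1)) - B ≤ rayD E m cls 1 s) (a : G) :
    ∃ B δ : ℝ, 0 < δ ∧ ∀ s : ℝ, 1 < s → s < 1 + δ →
      |rayD E m cls a s + rayD E m cls a⁻¹ s
        - (2 / (Fintype.card G : ℝ)) * Real.log (1 / (s - 1))| ≤ B := by
  classical
  letI : Fintype (G →* ℂˣ) := Fintype.ofFinite _
  obtain ⟨B₀, δ₀, hδ₀, h0⟩ := htight
  obtain ⟨C₁, δ₁, hδ₁, h1⟩ := exists_bound_tsum_rayX (E := E) (m := m) hRC.m_ne_bot
  have hU : ∀ ψ : G →* ℂˣ, ∃ U : ℝ, ψ ≠ 1 → ∀ s : ℝ, 1 < s → s ≤ 2 →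
      (chSum (fun 𝔮 : HeightOneSpectrum (𝓞 E) => cls 𝔮.asIdeal) (rayX E m s) ψ).re ≤ U := by
    intro ψ
    by_cases hψ : ψ = 1
    · exact ⟨0, fun h => absurd hψ h⟩
    · obtain ⟨U, hU⟩ := re_chSum_le hRC ψ hψ
      exact ⟨U, fun _ => hU⟩
  choose U hU using hU
  refine ⟨2 * (C₁ + (Fintype.card (G →* ℂˣ) : ℝ) *
      ((Fintype.card G : ℝ) * |B₀| + C₁ + ∑ ψ : G →* ℂˣ, |U ψ|)) / (Fintype.card G : ℝ),
    min (min δ₀ δ₁) 1, lt_min (lt_min hδ₀ hδ₁) one_pos, fun s hs hsδ => ?_⟩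
  have hs0 : s < 1 + δ₀ := by
    have := min_le_left (min δ₀ δ₁) 1
    have := min_le_left δ₀ δ₁
    linarith
  have hs1 : s < 1 + δ₁ := by
    have := min_le_left (min δ₀ δ₁) 1
    have := min_le_right δ₀ δ₁
    linarith
  have hs2 : s ≤ 2 := by
    have := min_le_right (min δ₀ δ₁) 1
    linarith
  have key := abs_clsSum_add_inv_sub_le
    (c := fun 𝔮 : HeightOneSpectrum (𝓞 E) => cls 𝔮.asIdeal) (x := rayX E m s)
    (summable_rayX hs) (rayX_nonneg s) (Lg := Real.log (1 / (s - 1))) (B₀ := B₀) (C₁ := C₁)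
    (U := U)
    (by
      rw [← rayD_eq_clsSum]
      have := h0 s hs hs0
      have h5 : Real.log (1 / (s - 1)) / (Fintype.card G : ℝ)
          = (1 / (Fintype.card G : ℝ)) * Real.log (1 / (s - 1)) := by ring
      rw [h5]
      exact this)
    (h1 s hs hs1) (fun ψ hψ => hU ψ hψ s hs hs2) a
  rw [← rayD_eq_clsSum, ← rayD_eq_clsSum] at key
  have h6 : (2 / (Fintype.card G : ℝ)) * Real.log (1 / (s - 1))
      = 2 * Real.log (1 / (s - 1)) / (Fintype.card G : ℝ) := by ring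
  rw [h6]
  exact key

/-- the same, with the hypothesis in the form "`cls` kills the norms from an extension `M` of
degree `≤ |G|`" (then `|G| = [M : E]` by the second inequality). -/
theorem rayD_add_inv_of_norm (M : Type) [Field M] [NumberField M] [Algebra E M]
    (hRC : RayClassMap E m G cls)
    (hnorm : ∀ A : Ideal (𝓞 M), A ≠ ⊥ → Ideal.relNorm (𝓞 E) A ⊔ m = ⊤ →
      cls (Ideal.relNorm (𝓞 E) A) = 1)
    (hdeg : Module.finrank E M ≤ Fintype.card G) (a : G) :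
    ∃ B δ : ℝ, 0 < δ ∧ ∀ s : ℝ, 1 < s → s < 1 + δ →
      |rayD E m cls a s + rayD E m cls a⁻¹ s
        - (2 / (Fintype.card G : ℝ)) * Real.log (1 / (s - 1))| ≤ B := by
  classical
  refine rayD_add_inv hRC ?_ a
  obtain ⟨B, δ, hδ, hB⟩ := rayPrimeSum E M m hRC.m_ne_bot cls hnorm
  refine ⟨B, min δ 1, lt_min hδ one_pos, fun s hs hsδ => ?_⟩
  have hs' : s < 1 + δ := by
    have := min_le_left δ 1
    linarith
  have hs2 : s < 2 := by
    have := min_le_right δ 1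
    linarith
  have h1 := hB s hs hs'
  have hlog : 0 ≤ Real.log (1 / (s - 1)) := by
    apply Real.log_nonneg
    rw [le_div_iff₀ (by linarith)]
    linarith
  have hM : (0 : ℝ) < (Module.finrank E M : ℝ) := by
    exact_mod_cast (Module.finrank_pos : 0 < Module.finrank E M)
  have hle : (1 / (Fintype.card G : ℝ)) ≤ 1 / (Module.finrank E M : ℝ) := by
    apply one_div_le_one_div_of_le hM
    exact_mod_cast hdeg
  have h2 : (1 / (Fintype.card G : ℝ)) * Real.log (1 / (s - 1))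
      ≤ 1 / (Module.finrank E M : ℝ) * Real.log (1 / (s - 1)) :=
    mul_le_mul_of_nonneg_right hle hlog
  have h3 : rayD E m cls 1 s = ∑' 𝔮 : HeightOneSpectrum (𝓞 E),
      if 𝔮.asIdeal ⊔ m = ⊤ ∧ cls 𝔮.asIdeal = 1 then normWeight E s 𝔮.asIdeal else 0 := by
    unfold rayD
    refine tsum_congr fun 𝔮 => ?_
    congr
  rw [h3]
  refine le_trans ?_ (le_of_le_of_eq h1 ?_)
  · linarith
  · refine tsum_congr fun 𝔮 => ?_
    congr

/-- the lower bound alone. -/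
theorem rayD_add_inv_ge (hRC : RayClassMap E m G cls)
    (htight : ∃ B δ : ℝ, 0 < δ ∧ ∀ s : ℝ, 1 < s → s < 1 + δ →
      (1 / (Fintype.card G : ℝ)) * Real.log (1 / (s - 1)) - B ≤ rayD E m cls 1 s) (a : G) :
    ∃ B δ : ℝ, 0 < δ ∧ ∀ s : ℝ, 1 < s → s < 1 + δ →
      (2 / (Fintype.card G : ℝ)) * Real.log (1 / (s - 1)) - B
        ≤ rayD E m cls a s + rayD E m cls a⁻¹ s := by
  obtain ⟨B, δ, hδ, hB⟩ := rayD_add_inv hRC htight a
  refine ⟨B, δ, hδ, fun s hs hsδ => ?_⟩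
  have := hB s hs hsδ
  rw [abs_le] at this
  linarith [this.1]

end ray

end Fermat.Agent.S48Cheb
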