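import Fermat.Agent.S48.Cheb.Defs
import Fermat.Agent.F4.Recip.CoprimeNorm

/-!
# S48 P5 seat (C1): the class map `I ↦ N(I)² mod t`  (helper30)

* `I ⊔ (t) = ⊤` `⟹` `absNorm I` prime to `t` (`F4Rec.coprimeAbsNorm`).
* the set of values `normSqSet F t` contains `1` (`I = ⊤`), is closed under products
  (`absNorm` is multiplicative, `I J ⊔ (t) = ⊤`), hence is a subgroup of the finite group `(ℤ/t)ˣ`:
  `normSqGroup F t = normSqSet F t` as sets.  This gives `clsT_spec` and `surj`.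
* `mul`: from `clsT_spec`.   * `ray`: `a - 1 ∈ (t)`, `a = 1 + t b`, the matrix of the
  multiplication by `a` is `≡ 1 mod t`, so `Algebra.norm ℤ a ≡ 1 mod t`; `absNorm (a) = |norm a|`
  (`Ideal.absNorm_span_singleton`), so `absNorm (a) ≡ ± 1` and the square is `1`;
  `(a) ⊔ (t) = ⊤` since `1 = a - t b`.
-/

set_option autoImplicit false
set_option linter.unusedSectionVars false

open NumberField

namespace Fermat.Agent.S48Cheb

section

variable (F : Type) [Field F] [NumberField F] (t : ℕ)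

/-- The ideals which count: nonzero and prime to `t`. -/
def IsAdmT (I : Ideal (𝓞 F)) : Prop := I ≠ ⊥ ∧ I ⊔ Ideal.span {(t : 𝓞 F)} = ⊤

variable {F t}

theorem IsAdmT.coprime {I : Ideal (𝓞 F)} (h : IsAdmT F t I) : (Ideal.absNorm I).Coprime t :=
  Fermat.Agent.F4Rec.coprimeAbsNorm F t I h.2

theorem IsAdmT.mul {I J : Ideal (𝓞 F)} (hI : IsAdmT F t I) (hJ : IsAdmT F t J) :
    IsAdmT F t (I * J) :=
  ⟨mul_ne_zero hI.1 hJ.1, by rw [Ideal.mul_sup_eq_of_coprime_left hI.2, hJ.2]⟩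

variable (F t) in
theorem isAdmT_top : IsAdmT F t ⊤ := ⟨top_ne_bot, top_sup_eq _⟩

theorem IsAdmT.pow {I : Ideal (𝓞 F)} (hI : IsAdmT F t I) (k : ℕ) : IsAdmT F t (I ^ k) := by
  induction k with
  | zero =>
    rw [pow_zero, Ideal.one_eq_top]
    exact isAdmT_top F t
  | succ k ih =>
    rw [pow_succ]
    exact ih.mul hI

/-- Coprimality to the modulus forces `I ≠ ⊥` when `t ≠ 1`. -/
theorem isAdmT_of_sup_eq_top (ht : t ≠ 1) {I : Ideal (𝓞 F)}
    (hI : I ⊔ Ideal.span {(t : 𝓞 F)} = ⊤) : IsAdmT F t I := by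
  refine ⟨?_, hI⟩
  rintro rfl
  have h0 : (Ideal.absNorm (⊥ : Ideal (𝓞 F))).Coprime t :=
    Fermat.Agent.F4Rec.coprimeAbsNorm F t ⊥ hI
  rw [Ideal.absNorm_bot, Nat.coprime_zero_left] at h0
  exact ht h0

/-- The unit `N(I)² mod t` of an admissible ideal. -/
noncomputable def sqUnit {I : Ideal (𝓞 F)} (h : IsAdmT F t I) : (ZMod t)ˣ :=
  (ZMod.unitOfCoprime _ h.coprime) ^ 2

theorem coe_sqUnit {I : Ideal (𝓞 F)} (h : IsAdmT F t I) :
    ((sqUnit h : (ZMod t)ˣ) : ZMod t) = ((Ideal.absNorm I : ℕ) : ZMod t) ^ 2 := by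
  rw [sqUnit, Units.val_pow_eq_pow_val, ZMod.coe_unitOfCoprime]

theorem sqUnit_mem_normSqSet {I : Ideal (𝓞 F)} (h : IsAdmT F t I) :
    sqUnit h ∈ normSqSet F t :=
  ⟨I, h.1, h.2, coe_sqUnit h⟩

theorem sqUnit_mem_normSqGroup {I : Ideal (𝓞 F)} (h : IsAdmT F t I) :
    sqUnit h ∈ normSqGroup F t :=
  Subgroup.subset_closure (sqUnit_mem_normSqSet h)

theorem sqUnit_mul {I J : Ideal (𝓞 F)} (hI : IsAdmT F t I) (hJ : IsAdmT F t J) :
    sqUnit (hI.mul hJ) = sqUnit hI * sqUnit hJ := by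
  ext
  rw [Units.val_mul, coe_sqUnit, coe_sqUnit, coe_sqUnit, map_mul]
  push_cast
  ring

theorem sqUnit_top : sqUnit (isAdmT_top F t) = 1 := by
  ext
  rw [coe_sqUnit, Ideal.absNorm_top]
  simp

theorem sqUnit_pow {I : Ideal (𝓞 F)} (hI : IsAdmT F t I) (k : ℕ) :
    sqUnit (hI.pow k) = sqUnit hI ^ k := by
  ext
  rw [coe_sqUnit, Units.val_pow_eq_pow_val, coe_sqUnit, map_pow]
  push_cast
  ring

/-- Every element of `normSqGroup` is the class of an admissible ideal. -/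
theorem exists_sqUnit_eq [NeZero t] {u : (ZMod t)ˣ} (hu : u ∈ normSqGroup F t) :
    ∃ (I : Ideal (𝓞 F)) (h : IsAdmT F t I), sqUnit h = u := by
  induction hu using Subgroup.closure_induction with
  | mem x hx =>
    obtain ⟨I, hI0, hI, hxI⟩ := hx
    have hadm : IsAdmT F t I := ⟨hI0, hI⟩
    refine ⟨I, hadm, ?_⟩
    ext
    rw [coe_sqUnit hadm, hxI]
  | one => exact ⟨⊤, isAdmT_top F t, sqUnit_top⟩
  | mul x y _ _ hx hy =>
    obtain ⟨I, hI, rfl⟩ := hx
    obtain ⟨J, hJ, rfl⟩ := hy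
    exact ⟨I * J, hI.mul hJ, sqUnit_mul hI hJ⟩
  | inv x _ hx =>
    obtain ⟨I, hI, rfl⟩ := hx
    refine ⟨I ^ (orderOf (sqUnit hI) - 1), hI.pow (orderOf (sqUnit hI) - 1), ?_⟩
    rw [sqUnit_pow hI]
    have hpos : 0 < orderOf (sqUnit hI) := orderOf_pos _
    rw [eq_inv_iff_mul_eq_one, ← pow_succ, Nat.sub_add_cancel hpos, pow_orderOf_eq_one]

/-- The value of `clsT` on an admissible ideal. -/
theorem clsT_eq {I : Ideal (𝓞 F)} (h : IsAdmT F t I) :
    ((clsT F t I : normSqGroup F t) : (ZMod t)ˣ) = sqUnit h := by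
  classical
  have hex : ∃ u : normSqGroup F t,
      (((u : normSqGroup F t) : (ZMod t)ˣ) : ZMod t) = ((Ideal.absNorm I : ℕ) : ZMod t) ^ 2 :=
    ⟨⟨sqUnit h, sqUnit_mem_normSqGroup h⟩, coe_sqUnit h⟩
  ext
  rw [clsT, dif_pos hex, hex.choose_spec, coe_sqUnit]

/-! ### The norm of `a ≡ 1 mod t` is `≡ 1 mod t` -/

/-- If `a ≡ 1 mod t 𝓞_F` then `N_{F/ℚ}(a) ≡ 1 mod t`. -/
theorem norm_intCast_zmod_eq_one {a : 𝓞 F} (ha : a - 1 ∈ Ideal.span {(t : 𝓞 F)}) :
    ((Algebra.norm ℤ a : ℤ) : ZMod t) = 1 := by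
  classical
  obtain ⟨b, hb⟩ := Ideal.mem_span_singleton.1 ha
  have ha' : a = 1 + (t : 𝓞 F) * b := by
    rw [← hb]
    ring
  let B := NumberField.RingOfIntegers.basis F
  have h1 : Algebra.norm ℤ a = (Algebra.leftMulMatrix B a).det :=
    Algebra.norm_eq_matrix_det B a
  have h2 : Algebra.leftMulMatrix B a = 1 + (t : ℤ) • Algebra.leftMulMatrix B b := by
    rw [ha', map_add, map_one, map_mul]
    have : Algebra.leftMulMatrix B ((t : 𝓞 F)) = (t : ℤ) • (1 : Matrix _ _ ℤ) := by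
      have h3 : ((t : 𝓞 F)) = algebraMap ℤ (𝓞 F) (t : ℤ) := by simp
      rw [h3, AlgHom.commutes, Algebra.algebraMap_eq_smul_one]
    rw [this, smul_mul_assoc, one_mul]
  rw [h1, h2]
  change (Int.castRingHom (ZMod t)) ((1 + (t : ℤ) • Algebra.leftMulMatrix B b).det) = 1
  rw [RingHom.map_det]
  have h4 : (Int.castRingHom (ZMod t)).mapMatrix
      (1 + (t : ℤ) • Algebra.leftMulMatrix B b) = 1 := by
    rw [map_add, map_one]
    have : (Int.castRingHom (ZMod t)).mapMatrix ((t : ℤ) • Algebra.leftMulMatrix B b) = 0 := by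
      ext i j
      rw [RingHom.mapMatrix_apply, Matrix.map_apply, Matrix.smul_apply, smul_eq_mul,
        Matrix.zero_apply]
      change (((t : ℤ) * Algebra.leftMulMatrix B b i j : ℤ) : ZMod t) = 0
      rw [Int.cast_mul, Int.cast_natCast, ZMod.natCast_self, zero_mul]
    rw [this, add_zero]
  rw [h4, Matrix.det_one]

/-- `N((a))² ≡ 1 mod t` for `a ≡ 1 mod t`. -/
theorem absNorm_span_singleton_sq {a : 𝓞 F} (ha : a - 1 ∈ Ideal.span {(t : 𝓞 F)}) :
    ((Ideal.absNorm (Ideal.span {a}) : ℕ) : ZMod t) ^ 2 = 1 := by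
  have h1 := norm_intCast_zmod_eq_one ha
  rw [Ideal.absNorm_span_singleton]
  have h2 : (((Algebra.norm ℤ a).natAbs : ℕ) : ZMod t) ^ 2 =
      ((Algebra.norm ℤ a : ℤ) : ZMod t) ^ 2 := by
    rcases Int.natAbs_eq (Algebra.norm ℤ a) with h | h
    · have h3 : (((Algebra.norm ℤ a).natAbs : ℤ) : ZMod t) = ((Algebra.norm ℤ a : ℤ) : ZMod t) := by
        rw [← h]
      rw [Int.cast_natCast] at h3
      rw [h3]
    · have h3 : (((Algebra.norm ℤ a).natAbs : ℤ) : ZMod t) =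
          -((Algebra.norm ℤ a : ℤ) : ZMod t) := by
        have h' : ((Algebra.norm ℤ a).natAbs : ℤ) = -Algebra.norm ℤ a := by omega
        rw [h', Int.cast_neg]
      rw [Int.cast_natCast] at h3
      rw [h3, neg_sq]
  rw [h2, h1, one_pow]

end

/-- **(C1)** `clsT` is a generalised ideal class map of modulus `(t)`. -/
theorem clsTStatement : ClsTStatement := by
  intro F _ _ t ht
  have : NeZero t := ⟨ht.ne_zero⟩
  have ht1 : t ≠ 1 := ht.ne_one
  refine ⟨⟨?_, ?_, ?_, ?_⟩, ?_⟩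
  · rw [Ne, Ideal.span_singleton_eq_bot]
    exact_mod_cast ht.ne_zero
  · intro I J hI hJ
    have hIa := isAdmT_of_sup_eq_top ht1 hI
    have hJa := isAdmT_of_sup_eq_top ht1 hJ
    apply Subtype.ext
    rw [Subgroup.coe_mul, clsT_eq (hIa.mul hJa), clsT_eq hIa, clsT_eq hJa, sqUnit_mul]
  · intro a ha0 ha
    have hadm : IsAdmT F t (Ideal.span {a}) := by
      refine ⟨by rwa [Ne, Ideal.span_singleton_eq_bot], ?_⟩
      rw [Ideal.eq_top_iff_one]
      have h1 : (1 : 𝓞 F) = a - (a - 1) := by ring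
      rw [h1]
      exact Ideal.sub_mem _ (Ideal.mem_sup_left (Ideal.mem_span_singleton_self a))
        (Ideal.mem_sup_right ha)
    apply Subtype.ext
    rw [clsT_eq hadm, Subgroup.coe_one]
    ext
    rw [coe_sqUnit, absNorm_span_singleton_sq ha, Units.val_one]
  · rintro ⟨u, hu⟩
    obtain ⟨I, hI, rfl⟩ := exists_sqUnit_eq hu
    exact ⟨I, hI.1, hI.2, Subtype.ext (clsT_eq hI)⟩
  · intro I hI0 hI
    have hadm : IsAdmT F t I := ⟨hI0, hI⟩
    rw [clsT_eq hadm, coe_sqUnit hadm]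

end Fermat.Agent.S48Cheb
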