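import Fermat.Agent.S48.Cheb.Defs
import Fermat.Agent.S48.Cheb.Consumer.Group
import Fermat.Agent.S48.Cheb.Consumer.Frob
import Fermat.Agent.S48.Cheb.Consumer.Combine
import Fermat.Agent.Lib.FrobDensity.Consumer

/-!
# S48 P5 seat (H): consumer form  (helper8)

`ChebotarevStatement` from `GaloisCheb`: normal closure `L` of the finite level, `r = ρ ∘ res_L`,
`C' = ρ⁻¹ C`; for `p` unramified in `L`, the `g` with `Hit L g p` are conjugate and every
Frobenius element of `Gal(ℚ̄/ℚ)` at `p` restricts to a conjugate of them;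
`∑_{g ∈ C'} |C(g)| ([Hit g p] + [Hit g⁻¹ p]) ≤ 2 |G'| [p ∈ frobPrimes r C]`;
`∑_{g ∈ C'} (|C(g)|/(2|G'|)) (2/|C(g)|) = |C'|/|G'| = |C|/|G|`; `cs_combine`.
-/

set_option autoImplicit false

open NumberField
open scoped Pointwise

namespace Fermat.Agent.S48Cheb

local notation "Qb" => AlgebraicClosure ℚ
local notation "GQ" => (AlgebraicClosure ℚ ≃ₐ[ℚ] AlgebraicClosure ℚ)

/-- Outside `R`, two elements which are Frobenius elements at primes over `p` are conjugate. -/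
theorem cs_hit_conj (L : IntermediateField ℚ Qb) [FiniteDimensional ℚ L] [IsGalois ℚ L]
    [NumberField L] (R : Finset ℕ)
    (hR : ∀ p : ℕ, p.Prime → p ∉ R →
      ∀ (A₀ A : ValuationSubring Qb) (τ₀ σ : GQ), A₀.LiesOverPrime p → A.LiesOverPrime p →
        A₀.IsFrobeniusAt τ₀ p → A.IsFrobeniusAt σ p →
        ∃ γ : GQ, (γ * τ₀ * γ⁻¹)⁻¹ * σ ∈ L.fixingSubgroup)
    (p : ℕ) (hp : p.Prime) (hpR : p ∉ R) (g h : L ≃ₐ[ℚ] L) (hg : Hit L g p) (hh : Hit L h p) :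
    ∃ γ : L ≃ₐ[ℚ] L, h = γ * g * γ⁻¹ := by
  obtain ⟨A₀, τ₀, hA₀, hτ₀, hres₀⟩ := cs_hit_lift L g p hp hg
  obtain ⟨A, σ, hA, hσ, hres⟩ := cs_hit_lift L h p hp hh
  obtain ⟨γ, hγ⟩ := hR p hp hpR A₀ A τ₀ σ hA₀ hA hτ₀ hσ
  refine ⟨AlgEquiv.restrictNormalHom L γ, ?_⟩
  have hγ' := Fermat.Agent.FrobDensity.consumer_restrictNormalHom_eq_one L hγ
  rw [map_mul, map_inv, map_mul, map_mul, map_inv, hres₀, hres] at hγ'
  exact (inv_mul_eq_one.mp hγ').symm

/-- Outside `R`, if `g` is a Frobenius element at a prime of `L` over `p` and `r` factors through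
`Gal(L/ℚ)` with `r(lift of g) ∈ C`, then `p ∈ frobPrimes r C`. -/
theorem cs_hit_mem_frobPrimes (L : IntermediateField ℚ Qb) [FiniteDimensional ℚ L]
    [IsGalois ℚ L] [NumberField L] (R : Finset ℕ)
    (hR : ∀ p : ℕ, p.Prime → p ∉ R →
      ∀ (A₀ A : ValuationSubring Qb) (τ₀ σ : GQ), A₀.LiesOverPrime p → A.LiesOverPrime p →
        A₀.IsFrobeniusAt τ₀ p → A.IsFrobeniusAt σ p →
        ∃ γ : GQ, (γ * τ₀ * γ⁻¹)⁻¹ * σ ∈ L.fixingSubgroup)
    {G : Type} [Group G] (r : GQ →* G) (hker : ∀ σ : GQ, σ ∈ L.fixingSubgroup → r σ = 1)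
    (ρ : (L ≃ₐ[ℚ] L) →* G) (hρ : ∀ σ : GQ, ρ (AlgEquiv.restrictNormalHom L σ) = r σ)
    (C : Set G) (hconj : ∀ g h : G, g ∈ C → h * g * h⁻¹ ∈ C)
    (p : ℕ) (hp : p.Prime) (hpR : p ∉ R) (g : L ≃ₐ[ℚ] L) (hgC : ρ g ∈ C) (hg : Hit L g p) :
    p ∈ Fermat.Agent.S48.frobPrimes r C := by
  obtain ⟨A₀, τ₀, hA₀, hτ₀, hres₀⟩ := cs_hit_lift L g p hp hg
  refine ⟨hp, fun A hA σ hσ => ?_⟩
  obtain ⟨γ, hγ⟩ := hR p hp hpR A₀ A τ₀ σ hA₀ hA hτ₀ hσ
  have h1 := hker _ hγ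
  rw [map_mul, map_inv] at h1
  have h2 : r σ = r (γ * τ₀ * γ⁻¹) := (inv_mul_eq_one.mp h1).symm
  rw [h2, map_mul, map_mul, map_inv]
  apply hconj
  rw [← hρ τ₀, hres₀]
  exact hgC

/-- The core: `L ⊆ ℚ̄` finite Galois, `r = ρ ∘ res_L`. -/
theorem cs_core (hG : GaloisCheb) (L : IntermediateField ℚ Qb) [FiniteDimensional ℚ L]
    [IsGalois ℚ L] [NumberField L]
    {G : Type} [Group G] (r : GQ →* G) (hker : ∀ σ : GQ, σ ∈ L.fixingSubgroup → r σ = 1)
    (ρ : (L ≃ₐ[ℚ] L) →* G) (hρ : ∀ σ : GQ, ρ (AlgEquiv.restrictNormalHom L σ) = r σ)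
    (C : Set G) (hconj : ∀ g h : G, g ∈ C → h * g * h⁻¹ ∈ C) (hinv : ∀ g : G, g ∈ C → g⁻¹ ∈ C) :
    Fermat.Agent.S48.LowerLogDensityGE (Fermat.Agent.S48.frobPrimes r C)
      ((Nat.card (ρ ⁻¹' C) : ℝ) / Nat.card (L ≃ₐ[ℚ] L)) := by
  classical
  obtain ⟨R, hR⟩ := cs_frob_conj L
  have hfinG : Finite (L ≃ₐ[ℚ] L) := inferInstance
  have : Fintype (L ≃ₐ[ℚ] L) := Fintype.ofFinite _
  set n' : ℕ := Nat.card (L ≃ₐ[ℚ] L) with hn'
  have hn'pos : 0 < n' := Nat.card_pos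
  obtain ⟨T, hTmem⟩ : ∃ T : Finset (L ≃ₐ[ℚ] L), ∀ g, g ∈ T ↔ ρ g ∈ C :=
    ⟨Finset.univ.filter (fun g => ρ g ∈ C), fun g => by simp⟩
  let cz : (L ≃ₐ[ℚ] L) → ℕ := fun g => Nat.card (Subgroup.centralizer ({g} : Set (L ≃ₐ[ℚ] L)))
  have hczpos : ∀ g, 0 < cz g := fun g => Nat.card_pos
  have hczinv : ∀ g, cz g⁻¹ = cz g := by
    intro g
    have : Subgroup.centralizer ({g⁻¹} : Set (L ≃ₐ[ℚ] L)) = Subgroup.centralizer {g} := by
      ext h
      simp only [Subgroup.mem_centralizer_iff, Set.mem_singleton_iff, forall_eq]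
      constructor
      · intro hh
        exact (Commute.inv_left_iff (a := g) (b := h)).mp hh
      · intro hh
        exact (Commute.inv_left_iff (a := g) (b := h)).mpr hh
    simp only [cz, this]
  -- the weights
  let w : (L ≃ₐ[ℚ] L) → Nat.Primes → ℝ := fun g p =>
    (if (p : ℕ) ∉ R ∧ Hit L g p then (1 : ℝ) else 0) +
      (if (p : ℕ) ∉ R ∧ Hit L g⁻¹ p then (1 : ℝ) else 0)
  let a : (L ≃ₐ[ℚ] L) → ℝ := fun g => (cz g : ℝ) / (2 * n')
  let c : (L ≃ₐ[ℚ] L) → ℝ := fun g => 2 / (cz g : ℝ)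
  have hsumac : ∑ g ∈ T, a g * c g = (Nat.card (ρ ⁻¹' C) : ℝ) / n' := by
    have h1 : ∀ g ∈ T, a g * c g = 1 / (n' : ℝ) := by
      intro g _
      have h2 : (cz g : ℝ) ≠ 0 := by exact_mod_cast (hczpos g).ne'
      have h3 : (n' : ℝ) ≠ 0 := by exact_mod_cast hn'pos.ne'
      simp only [a, c]
      field_simp
    rw [Finset.sum_congr rfl h1, Finset.sum_const, nsmul_eq_mul, mul_one_div]
    congr 1
    have : Nat.card (ρ ⁻¹' C) = T.card := by
      rw [← Nat.card_eq_finsetCard]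
      refine Nat.card_congr (Equiv.subtypeEquivRight fun g => ?_)
      rw [hTmem]
      rfl
    rw [this]
  rw [← hsumac]
  have hw0 : ∀ g ∈ T, ∀ p, 0 ≤ w g p := by
    intro g _ p
    simp only [w]
    split_ifs <;> norm_num
  have hw2 : ∀ g ∈ T, ∀ p, w g p ≤ 2 := by
    intro g _ p
    simp only [w]
    split_ifs <;> norm_num
  have ha : ∀ g ∈ T, 0 ≤ a g := fun g _ => by
    simp only [a]; positivity
  refine cs_combine T w a c ha hw0 hw2 (fun g _ => hG L g R) _ ?_ ?_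
  · -- outside `X` all the weights vanish
    intro p hpX
    apply le_of_eq
    refine Finset.sum_eq_zero fun g hg => ?_
    have hgC : ρ g ∈ C := (hTmem g).mp hg
    have h1 : ¬ ((p : ℕ) ∉ R ∧ Hit L g p) := by
      rintro ⟨hpR, hhit⟩
      exact hpX (cs_hit_mem_frobPrimes L R hR r hker ρ hρ C hconj p p.2 hpR g hgC hhit)
    have h2 : ¬ ((p : ℕ) ∉ R ∧ Hit L g⁻¹ p) := by
      rintro ⟨hpR, hhit⟩
      have hgC' : ρ g⁻¹ ∈ C := by
        rw [map_inv]; exact hinv _ hgC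
      exact hpX (cs_hit_mem_frobPrimes L R hR r hker ρ hρ C hconj p p.2 hpR g⁻¹ hgC' hhit)
    simp only [w, if_neg h1, if_neg h2, add_zero, mul_zero]
  · -- the weighted sum is at most `1`
    intro p
    have hn'R : (0 : ℝ) < n' := by exact_mod_cast hn'pos
    -- the two sums
    have key : ∀ (Q : (L ≃ₐ[ℚ] L) → Prop) [DecidablePred Q],
        (∀ g h, Q g → Q h → ∃ γ : L ≃ₐ[ℚ] L, h = γ * g * γ⁻¹) →
        ∑ g ∈ T, (cz g : ℝ) * (if Q g then (1 : ℝ) else 0) ≤ n' := by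
      intro Q _ hQ
      have e1 : ∑ g ∈ T, (cz g : ℝ) * (if Q g then (1 : ℝ) else 0) =
          ∑ g ∈ T.filter Q, (cz g : ℝ) := by
        rw [Finset.sum_filter]
        exact Finset.sum_congr rfl fun g _ => by split_ifs <;> simp
      rw [e1]
      rcases (T.filter Q).eq_empty_or_nonempty with hemp | ⟨g₀, hg₀⟩
      · rw [hemp, Finset.sum_empty]
        exact hn'R.le
      · have hQ₀ : Q g₀ := (Finset.mem_filter.mp hg₀).2
        have := cs_sum_card_centralizer_le g₀ (T.filter Q)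
          (fun g hg => hQ g₀ g hQ₀ (Finset.mem_filter.mp hg).2)
        exact_mod_cast this
    have k1 := key (fun g => (p : ℕ) ∉ R ∧ Hit L g p) (by
      rintro g h ⟨hpR, hg⟩ ⟨-, hh⟩
      exact cs_hit_conj L R hR p p.2 hpR g h hg hh)
    have k2 := key (fun g => (p : ℕ) ∉ R ∧ Hit L g⁻¹ p) (by
      rintro g h ⟨hpR, hg⟩ ⟨-, hh⟩
      obtain ⟨γ, hγ⟩ := cs_hit_conj L R hR p p.2 hpR g⁻¹ h⁻¹ hg hh
      refine ⟨γ, ?_⟩
      have := congrArg (fun x => x⁻¹) hγ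
      simp only [inv_inv] at this
      rw [this]
      group)
    have e : ∑ g ∈ T, a g * w g p =
        (1 / (2 * (n' : ℝ))) * (∑ g ∈ T, (cz g : ℝ) * (if (p : ℕ) ∉ R ∧ Hit L g p then (1 : ℝ) else 0)
          + ∑ g ∈ T, (cz g : ℝ) * (if (p : ℕ) ∉ R ∧ Hit L g⁻¹ p then (1 : ℝ) else 0)) := by
      rw [← Finset.sum_add_distrib, Finset.mul_sum]
      refine Finset.sum_congr rfl fun g _ => ?_
      simp only [a, w]
      ring
    rw [e]
    have h3 : (1 / (2 * (n' : ℝ))) * ((n' : ℝ) + n') = 1 := by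
      field_simp
      ring
    calc (1 / (2 * (n' : ℝ))) * (_ + _) ≤ (1 / (2 * (n' : ℝ))) * ((n' : ℝ) + n') := by
          apply mul_le_mul_of_nonneg_left (add_le_add k1 k2)
          positivity
      _ = 1 := h3

theorem chebotarevStatement_of (hG : GaloisCheb) : Fermat.Agent.S48.ChebotarevStatement := by
  intro G _ _ r hr hfac C hconj hinv
  classical
  obtain ⟨L₀, hL₀fin, hL₀⟩ := hfac
  -- the normal closure of the finite level
  haveI hgalQb : IsGalois ℚ Qb := Fermat.Agent.F4.isGalois_Qbar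
  set L : IntermediateField ℚ Qb := IntermediateField.normalClosure ℚ L₀ Qb with hL
  haveI hLfin : FiniteDimensional ℚ L := normalClosure.is_finiteDimensional ℚ L₀ Qb
  haveI hLnorm : Normal ℚ L := normalClosure.normal ℚ L₀ Qb
  haveI hLgal : IsGalois ℚ L := { }
  haveI hLnf : NumberField L := { }
  have hker : ∀ σ : GQ, σ ∈ L.fixingSubgroup → r σ = 1 := by
    intro σ hσ
    apply hL₀
    intro x hx
    exact (IntermediateField.mem_fixingSubgroup_iff L σ).mp hσ x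
      (IntermediateField.le_normalClosure L₀ hx)
  have hsurj : Function.Surjective (AlgEquiv.restrictNormalHom (F := ℚ) (K₁ := Qb) L) :=
    AlgEquiv.restrictNormalHom_surjective Qb
  have hkerle : (AlgEquiv.restrictNormalHom (F := ℚ) (K₁ := Qb) L).ker ≤ r.ker := by
    intro σ hσ
    exact MonoidHom.mem_ker.mpr (hker σ
      (Fermat.Agent.FrobDensity.consumer_mem_fixingSubgroup L (MonoidHom.mem_ker.mp hσ)))
  set ρ : (L ≃ₐ[ℚ] L) →* G :=
    (AlgEquiv.restrictNormalHom (F := ℚ) (K₁ := Qb) L).liftOfSurjective hsurj ⟨r, hkerle⟩ with hρdef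
  have hρ : ∀ σ : GQ, ρ (AlgEquiv.restrictNormalHom L σ) = r σ := by
    intro σ
    exact MonoidHom.liftOfRightInverse_comp_apply _ _ _ ⟨r, hkerle⟩ σ
  have hρsurj : Function.Surjective ρ := by
    intro g
    obtain ⟨σ, rfl⟩ := hr g
    exact ⟨AlgEquiv.restrictNormalHom L σ, hρ σ⟩
  have hcore := cs_core hG L r hker ρ hρ C hconj hinv
  have hcard : (Nat.card (ρ ⁻¹' C) : ℝ) / Nat.card (L ≃ₐ[ℚ] L) = (Nat.card C : ℝ) / Nat.card G := by
    have h1 := cs_card_preimage_mul ρ hρsurj C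
    have h2 : (0 : ℝ) < Nat.card (L ≃ₐ[ℚ] L) := by exact_mod_cast Nat.card_pos
    have h3 : (0 : ℝ) < Nat.card G := by exact_mod_cast Nat.card_pos
    rw [div_eq_div_iff h2.ne' h3.ne']
    exact_mod_cast h1
  rw [← hcard]
  exact hcore

end Fermat.Agent.S48Cheb
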