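import Fermat.Agent.S48.Cheb.Defs
import Fermat.Agent.S48.Cheb.Crossing.Count

/-!
# S48 P5 seat (D): crossing (helper23)

`F = IntermediateField.fixedField (Subgroup.zpowers σ) ⊆ K` (over `E`), `Gal(K/F) ≅ ⟨σ⟩`,
`χ_F` = the cyclotomic character of `Gal(K/F)` (`IsPrimitiveRoot.autToPow F hζ`), injective by
`h1`, `-1` and `a` in its image by `h2`/`σ`.  `[K:F] [F:E] = [K:E]`.
(C) gives `LowerSharp (w_F) (4/[K:F])`,
`w_F p = [p² = a²] idealCount F p + [p² = a⁻²] idealCount F p`.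
Pointwise (`crs_idealCount_le`): `idealCount F p ≤ [F:E] * frobCount E L (g ^ k) p` when
`p² = (a ^ k)²` (`p` prime): a prime `𝔓` of `𝓞 F` of norm `p` lies over `𝔮 = 𝔓 ∩ 𝓞 E` of norm `p`;
a Frobenius `φ ∈ Gal(K/F)` at a prime `P̃` of `𝓞 K` above `𝔓` has `χ φ = p = ± a ^ k` (C2), so
`φ ∈ {σ ^ k, σ ^ (k + j)}` and `φ|_L = g ^ k`; restricting the congruence to `𝓞 L`, `g ^ k` is a
Frobenius at `P̃ ∩ 𝓞 L` over `𝔮`.  The map `𝔓 ↦ 𝔮` has fibres of size `≤ [F:E]`.
-/

set_option autoImplicit false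

open NumberField IsDedekindDomain

namespace Fermat.Agent.S48Cheb

open Fermat.Agent.FrobDensity (normWeight idealCount)

/-- Monotonicity of weighted prime sums. -/
theorem crs_tsum_le {w w' : Nat.Primes → ℝ} (hw : ∃ B : ℝ, ∀ p, |w p| ≤ B)
    (hw' : ∃ B : ℝ, ∀ p, |w' p| ≤ B) (n : ℝ) (h : ∀ p, w p ≤ n * w' p) {s : ℝ} (hs : 1 < s) :
    ∑' p : Nat.Primes, w p * ((p : ℕ) : ℝ) ^ (-s) ≤
      n * ∑' p : Nat.Primes, w' p * ((p : ℕ) : ℝ) ^ (-s) := by
  rw [← tsum_mul_left]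
  refine Summable.tsum_le_tsum (fun p => ?_) (FrobDensity.summable_weight_mul_rpow hw hs)
    ((FrobDensity.summable_weight_mul_rpow hw' hs).mul_left n)
  rw [← mul_assoc]
  exact mul_le_mul_of_nonneg_right (h p) (Real.rpow_nonneg (Nat.cast_nonneg _) _)

theorem crossing_of (hC : CycDensity) (hC2 : CycArtin) : Crossing := by
  intro E L K _ _ _ _ _ _ _ _ _ _ _ _ t ht ht2 ζ hζ σ a hσ h1 h2
  classical
  obtain ⟨j, hj, hjL⟩ := h2
  haveI : NeZero t := ⟨ht.ne_zero⟩
  -- the cyclotomic character of `Gal(K/F)`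
  have hχspec : ∀ τ : K ≃ₐ[crsF E K σ] K,
      τ ζ = ζ ^ ((hζ.autToPow (crsF E K σ) τ : (ZMod t)ˣ) : ZMod t).val :=
    fun τ => (hζ.autToPow_spec (crsF E K σ) τ).symm
  have hχinj : Function.Injective (hζ.autToPow (crsF E K σ)) := by
    rw [injective_iff_map_eq_one]
    intro τ hτ
    obtain ⟨i, hi⟩ := crs_exists_pow σ τ
    have h3 := crs_autToPow_eq hζ hσ τ i hi
    rw [hτ] at h3
    have hσi := h1 i h3.symm
    apply crs_eq_of_restrictScalars σ
    rw [hi, hσi]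
    rfl
  have hneg : ∃ τ, hζ.autToPow (crsF E K σ) τ = -1 :=
    ⟨crsPow σ j, by rw [crs_autToPow_eq hζ hσ _ j (crsPow_restrictScalars σ j), hj]⟩
  have ha : a ∈ Set.range (hζ.autToPow (crsF E K σ)) :=
    ⟨crsPow σ 1, by rw [crs_autToPow_eq hζ hσ _ 1 (crsPow_restrictScalars σ 1), pow_one]⟩
  obtain ⟨B, δ, hδ, hB⟩ := hC (crsF E K σ) K t ht ht2 ζ hζ (hζ.autToPow (crsF E K σ)) hχspec
    hχinj hneg a ha
  -- degrees
  have hn0 : 0 < Module.finrank E (crsF E K σ) := Module.finrank_pos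
  have hm0 : 0 < Module.finrank (crsF E K σ) K := Module.finrank_pos
  have hdeg : Module.finrank E (crsF E K σ) * Module.finrank (crsF E K σ) K =
      Module.finrank E K := Module.finrank_mul_finrank E (crsF E K σ) K
  -- the exponent of the inverse
  have hord : 0 < orderOf a := orderOf_pos a
  have hk : a ^ (orderOf a - 1) = a⁻¹ := by
    apply eq_inv_of_mul_eq_one_left
    rw [← pow_succ, Nat.sub_add_cancel hord, pow_orderOf_eq_one]
  have hgk : (AlgEquiv.restrictNormalHom L σ) ^ (orderOf a - 1) =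
      (AlgEquiv.restrictNormalHom L σ)⁻¹ := by
    apply eq_inv_of_mul_eq_one_left
    rw [← pow_succ, Nat.sub_add_cancel hord, ← map_pow, h1 _ (pow_orderOf_eq_one a), map_one]
  -- pointwise inequality
  have hpt : ∀ p : Nat.Primes,
      ((if (((p : ℕ) : ZMod t)) ^ 2 = ((a : (ZMod t)ˣ) : ZMod t) ^ 2
          then (idealCount (crsF E K σ) p : ℝ) else 0) +
        (if (((p : ℕ) : ZMod t)) ^ 2 = ((a⁻¹ : (ZMod t)ˣ) : ZMod t) ^ 2
          then (idealCount (crsF E K σ) p : ℝ) else 0)) ≤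
      (Module.finrank E (crsF E K σ) : ℝ) *
        ((if (((p : ℕ) : ZMod t)) ^ 2 = ((a : (ZMod t)ˣ) : ZMod t) ^ 2
          then (frobCount E L (AlgEquiv.restrictNormalHom L σ) p : ℝ) else 0) +
        (if (((p : ℕ) : ZMod t)) ^ 2 = ((a⁻¹ : (ZMod t)ˣ) : ZMod t) ^ 2
          then (frobCount E L (AlgEquiv.restrictNormalHom L σ)⁻¹ p : ℝ) else 0)) := by
    intro p
    rw [mul_add]
    refine add_le_add ?_ ?_
    · split_ifs with h
      · have h' : ((p : ℕ) : ZMod t) ^ 2 = (((a ^ 1 : (ZMod t)ˣ) : (ZMod t)ˣ) : ZMod t) ^ 2 := by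
          rw [pow_one]
          exact h
        have := crs_idealCount_le (L := L) hC2 ht hζ σ a hσ h1 j hj hjL p.2 1 h'
        rw [pow_one] at this
        exact_mod_cast this
      · simp
    · split_ifs with h
      · have h' : ((p : ℕ) : ZMod t) ^ 2 =
            (((a ^ (orderOf a - 1) : (ZMod t)ˣ) : (ZMod t)ˣ) : ZMod t) ^ 2 := by
          rw [hk]
          exact h
        have := crs_idealCount_le (L := L) hC2 ht hζ σ a hσ h1 j hj hjL p.2 (orderOf a - 1) h'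
        rw [hgk] at this
        exact_mod_cast this
      · simp
  -- boundedness of the weights
  have hbF : ∃ B' : ℝ, ∀ p : Nat.Primes,
      |((if (((p : ℕ) : ZMod t)) ^ 2 = ((a : (ZMod t)ˣ) : ZMod t) ^ 2
          then (idealCount (crsF E K σ) p : ℝ) else 0) +
        (if (((p : ℕ) : ZMod t)) ^ 2 = ((a⁻¹ : (ZMod t)ˣ) : ZMod t) ^ 2
          then (idealCount (crsF E K σ) p : ℝ) else 0))| ≤ B' := by
    refine ⟨2 * Module.finrank ℚ (crsF E K σ), fun p => ?_⟩
    have h5 : (idealCount (crsF E K σ) p : ℝ) ≤ Module.finrank ℚ (crsF E K σ) := by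
      exact_mod_cast FrobDensity.idealCount_le_finrank (K := crsF E K σ) p.2
    have h6 : (0 : ℝ) ≤ (idealCount (crsF E K σ) p : ℝ) := Nat.cast_nonneg _
    rw [abs_of_nonneg (by split_ifs <;> positivity)]
    split_ifs <;> linarith
  have hbE : ∃ B' : ℝ, ∀ p : Nat.Primes,
      |((if (((p : ℕ) : ZMod t)) ^ 2 = ((a : (ZMod t)ˣ) : ZMod t) ^ 2
          then (frobCount E L (AlgEquiv.restrictNormalHom L σ) p : ℝ) else 0) +
        (if (((p : ℕ) : ZMod t)) ^ 2 = ((a⁻¹ : (ZMod t)ˣ) : ZMod t) ^ 2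
          then (frobCount E L (AlgEquiv.restrictNormalHom L σ)⁻¹ p : ℝ) else 0))| ≤ B' := by
    refine ⟨2 * Module.finrank ℚ E, fun p => ?_⟩
    have h5 : ∀ g : L ≃ₐ[E] L, (frobCount E L g p : ℝ) ≤ Module.finrank ℚ E := by
      intro g
      exact_mod_cast (crs_frobCount_le g p).trans
        (FrobDensity.idealCount_le_finrank (K := E) p.2)
    have h6 : ∀ g : L ≃ₐ[E] L, (0 : ℝ) ≤ (frobCount E L g p : ℝ) := fun g => Nat.cast_nonneg _
    have h7 := h5 (AlgEquiv.restrictNormalHom L σ)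
    have h8 := h5 (AlgEquiv.restrictNormalHom L σ)⁻¹
    have h9 := h6 (AlgEquiv.restrictNormalHom L σ)
    have h10 := h6 (AlgEquiv.restrictNormalHom L σ)⁻¹
    rw [abs_of_nonneg (by split_ifs <;> positivity)]
    split_ifs <;> linarith
  refine ⟨B / Module.finrank E (crsF E K σ), δ, hδ, fun s hs hs' => ?_⟩
  have h11 := hB s hs hs'
  have h12 := crs_tsum_le hbF hbE (Module.finrank E (crsF E K σ) : ℝ) hpt hs
  have hnR : (0 : ℝ) < (Module.finrank E (crsF E K σ) : ℝ) := by exact_mod_cast hn0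
  have hmR : (0 : ℝ) < (Module.finrank (crsF E K σ) K : ℝ) := by exact_mod_cast hm0
  have hdegR : (Module.finrank E K : ℝ) =
      (Module.finrank E (crsF E K σ) : ℝ) * (Module.finrank (crsF E K σ) K : ℝ) := by
    rw [← hdeg]
    push_cast
    ring
  have h13 := h11.trans h12
  rw [hdegR]
  have h14 : 4 / ((Module.finrank E (crsF E K σ) : ℝ) * (Module.finrank (crsF E K σ) K : ℝ)) *
      Real.log (1 / (s - 1)) - B / (Module.finrank E (crsF E K σ) : ℝ) =
      (4 / (Module.finrank (crsF E K σ) K : ℝ) * Real.log (1 / (s - 1)) - B) /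
        (Module.finrank E (crsF E K σ) : ℝ) := by
    field_simp
  rw [h14, div_le_iff₀ hnR]
  exact h13.trans (le_of_eq (mul_comm _ _))

end Fermat.Agent.S48Cheb
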