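import Fermat.Agent.S48.Cheb.Defs

/-!
# S48 P5 seat (C2): Frobenius acts on `ζ_t` through `q mod t`  (helper8)

`z : 𝓞 K` with `(z : K) = ζ`.  `φ • z - z ^ q ∈ P` and `φ • z = z ^ c`, so `z ^ c - z ^ q ∈ P`.
If `q ≢ c mod t` then `z ^ j - 1 ∈ P` for some `j` prime to `t` (`z` is a unit), `z ^ j` is a
primitive `t`-th root of unity and `1 - z ^ j` divides `t = ∑_{i < t} (1 - (z ^ j) ^ i)`, so
`t ∈ P`: contradiction.
-/

set_option autoImplicit false

open NumberField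

namespace Fermat.Agent.S48Cheb

/-- For a primitive `t`-th root of unity `w` (`t ≥ 2`) in a commutative ring, `1 - w` divides
`t`. -/
theorem ca_one_sub_dvd {R : Type*} [CommRing R] [IsDomain R] {w : R} {t : ℕ}
    (hw : IsPrimitiveRoot w t) (ht : 1 < t) : (1 - w) ∣ (t : R) := by
  have h0 : ∑ i ∈ Finset.range t, w ^ i = 0 := hw.geom_sum_eq_zero ht
  have h1 : (t : R) = ∑ i ∈ Finset.range t, (1 - w ^ i) := by
    rw [Finset.sum_sub_distrib, h0, sub_zero]
    simp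
  rw [h1]
  refine Finset.dvd_sum fun i _ => ?_
  exact ⟨∑ k ∈ Finset.range i, w ^ k, (mul_neg_geom_sum w i).symm⟩

/-- In a commutative domain, with `z` a primitive `t`-th root of unity (`t` prime) and `P` a prime
ideal not containing `t`: `z ^ j - 1 ∈ P` implies `t ∣ j`. -/
theorem ca_dvd_of_pow_sub_one_mem {R : Type*} [CommRing R] [IsDomain R] {z : R} {t : ℕ}
    (ht : t.Prime) (hz : IsPrimitiveRoot z t) (P : Ideal R)
    (htP : (t : R) ∉ P) (j : ℕ) (hj : z ^ j - 1 ∈ P) : t ∣ j := by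
  by_contra hnd
  have hcop : Nat.Coprime j t := (Nat.Coprime.symm ((Nat.Prime.coprime_iff_not_dvd ht).mpr hnd))
  have hw : IsPrimitiveRoot (z ^ j) t := hz.pow_of_coprime j hcop
  have hdvd := ca_one_sub_dvd hw ht.one_lt
  apply htP
  have h1 : (1 - z ^ j) ∈ P := by
    have := P.neg_mem hj
    rwa [neg_sub] at this
  exact Ideal.mem_of_dvd P hdvd h1

/-- `z ^ c - z ^ q ∈ P` implies `q ≡ c mod t`. -/
theorem ca_modEq_of_pow_sub_pow_mem {R : Type*} [CommRing R] [IsDomain R] {z : R} {t : ℕ}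
    (ht : t.Prime) (hz : IsPrimitiveRoot z t) (P : Ideal R) (hP : P.IsPrime)
    (htP : (t : R) ∉ P) (c q : ℕ) (h : z ^ c - z ^ q ∈ P) : (q : ZMod t) = (c : ZMod t) := by
  have hunit : ∀ n : ℕ, z ^ n ∉ P := by
    intro n hn
    have h1 : (z ^ n) ^ t ∈ P := Ideal.pow_mem_of_mem P hn t ht.pos
    rw [← pow_mul, mul_comm, pow_mul, hz.pow_eq_one, one_pow] at h1
    exact hP.ne_top ((Ideal.eq_top_iff_one P).mpr h1)
  rcases le_total q c with hqc | hcq
  · -- `z ^ c - z ^ q = z ^ q (z ^ (c - q) - 1)`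
    have h1 : z ^ c - z ^ q = z ^ q * (z ^ (c - q) - 1) := by
      rw [mul_sub, mul_one, ← pow_add, Nat.add_sub_cancel' hqc]
    rw [h1] at h
    have h2 := (hP.mem_or_mem h).resolve_left (hunit q)
    have h3 := ca_dvd_of_pow_sub_one_mem ht hz P htP _ h2
    have h4 : ((c - q : ℕ) : ZMod t) = 0 := (ZMod.natCast_eq_zero_iff _ _).mpr h3
    rw [Nat.cast_sub hqc, sub_eq_zero] at h4
    exact h4.symm
  · have h1 : z ^ c - z ^ q = -(z ^ c * (z ^ (q - c) - 1)) := by
      rw [mul_sub, mul_one, ← pow_add, Nat.add_sub_cancel' hcq]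
      ring
    rw [h1] at h
    have h' : z ^ c * (z ^ (q - c) - 1) ∈ P := by
      have := P.neg_mem h
      rwa [neg_neg] at this
    have h2 := (hP.mem_or_mem h').resolve_left (hunit c)
    have h3 := ca_dvd_of_pow_sub_one_mem ht hz P htP _ h2
    have h4 : ((q - c : ℕ) : ZMod t) = 0 := (ZMod.natCast_eq_zero_iff _ _).mpr h3
    rw [Nat.cast_sub hcq, sub_eq_zero] at h4
    exact h4

theorem cycArtin : CycArtin := by
  intro F K _ _ _ _ _ t ht ζ hζ P hP htP φ q c hφ hζc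
  have : NeZero t := ⟨ht.ne_zero⟩
  set z : 𝓞 K := hζ.toInteger with hz
  have hzprim : IsPrimitiveRoot z t := hζ.toInteger_isPrimitiveRoot
  have h1 : φ • z = z ^ c := by
    apply NumberField.RingOfIntegers.coe_injective
    show φ ((z : 𝓞 K) : K) = ((z ^ c : 𝓞 K) : K)
    have e1 : ((z : 𝓞 K) : K) = ζ := rfl
    have e2 : ((z ^ c : 𝓞 K) : K) = ζ ^ c := by
      rw [show ((z ^ c : 𝓞 K) : K) = ((z : 𝓞 K) : K) ^ c from map_pow (algebraMap (𝓞 K) K) z c, e1]
    rw [e1, e2]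
    exact hζc
  have h2 := hφ z
  rw [h1] at h2
  exact ca_modEq_of_pow_sub_pow_mem ht hzprim P hP htP c q h2

end Fermat.Agent.S48Cheb
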