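import Fermat.Agent.S48.Cheb.Defs
import Fermat.Agent.Lib.FrobDensity.Cyclic
import Fermat.Agent.Lib.FrobDensity.FrobGen
import Fermat.Agent.S48.Cheb.CycDensity.FixedNorm
import Fermat.Agent.S48.Cheb.CycDensity.Sums

/-!
# S48 P5 seat (C): density of the primes of `F` of norm `± a^{±1} mod t` (helper30)

Setting: `K/F` Galois, `χ : Gal(K/F) ↪ (ℤ/t)ˣ` injective (so `Gal(K/F)` is cyclic), `-1 ∈ im χ`,
`2r = [K:F]`.  `G_F = normSqGroup F t`, `cls = clsT F t` (seat C1).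
1. `G_F ⊆ (im χ)²`: for a prime `𝔓 ∤ t` of `F` take a Frobenius `φ` at a prime of `K` above;
   `N𝔓 ≡ χ φ` (seat C2).  (`CycDensity/Norms.lean`)
2. `(im χ)² ⊆ G_F`: `FrobDensity.exists_inert` for the cyclic extension `K/F` gives a prime of
   norm `p` whose Frobenius generates `Gal(K/F)`.  (`CycDensity/Norms.lean`)
3. Hypothesis of (A): `cls` kills the norms from the fixed field `M` of `{1, σ₋₁}`, and
   `[M:F] = r = #G_F`; `F4Ray.rayPrimeSum`.  (`CycDensity/FixedNorm.lean`)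
4. Apply (A) to the class `a² ∈ G_F`; back to `Nat.Primes`-indexed sums (the primes of `F` of
   degree `> 1` contribute `O(1)`; `CycDensity/Sums.lean`).
-/

set_option autoImplicit false

open NumberField IsDedekindDomain

namespace Fermat.Agent.S48Cheb

open Fermat.Agent.FrobDensity (normWeight idealCount highSum)

/-- The weight `[Q p] · #{ideals of norm p}` is bounded. -/
theorem cd_weight_bounded (F : Type) [Field F] [NumberField F] (Q : ℕ → Prop) :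
    ∃ B : ℝ, ∀ p : Nat.Primes,
      |(open scoped Classical in if Q (p : ℕ) then (idealCount F p : ℝ) else 0)| ≤ B := by
  classical
  refine ⟨(Module.finrank ℚ F : ℝ), fun p => ?_⟩
  split_ifs
  · rw [abs_of_nonneg (Nat.cast_nonneg _)]
    exact_mod_cast Fermat.Agent.FrobDensity.idealCount_le_finrank F p.2
  · rw [abs_zero]
    exact Nat.cast_nonneg _

/-- The class-indicator weight on the primes of `F`. -/
theorem cd_class_tsum_le (hC1 : ClsTStatement) (F : Type) [Field F] [NumberField F] {t : ℕ}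
    (ht : t.Prime) (u : normSqGroup F t) {s : ℝ} (hs : 1 < s) :
    (∑' 𝔮 : HeightOneSpectrum (𝓞 F),
      open scoped Classical in
      if 𝔮.asIdeal ⊔ Ideal.span {(t : 𝓞 F)} = ⊤ ∧ clsT F t 𝔮.asIdeal = u
        then normWeight F s 𝔮.asIdeal else 0) ≤
      (∑' p : Nat.Primes,
        (open scoped Classical in
          if (((p : ℕ) : ZMod t)) ^ 2 = (((u : normSqGroup F t) : (ZMod t)ˣ) : ZMod t)
            then (idealCount F p : ℝ) else 0) * ((p : ℕ) : ℝ) ^ (-s)) + highSum F s := by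
  classical
  have h := cd_tsum_le F
    (fun n => ((n : ℕ) : ZMod t) ^ 2 = (((u : normSqGroup F t) : (ZMod t)ˣ) : ZMod t)) hs
    (fun 𝔮 => if 𝔮.asIdeal ⊔ Ideal.span {(t : 𝓞 F)} = ⊤ ∧ clsT F t 𝔮.asIdeal = u
        then normWeight F s 𝔮.asIdeal else 0)
    (fun 𝔮 => by
      split_ifs
      · exact Fermat.Agent.FrobDensity.normWeight_nonneg s _
      · exact le_rfl)
    (fun 𝔮 => by
      split_ifs
      · exact le_rfl
      · exact Fermat.Agent.FrobDensity.normWeight_nonneg s _)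
    (fun 𝔮 hQ => by
      rw [if_neg]
      rintro ⟨hadm, hcls⟩
      apply hQ
      have h1 := (hC1 F t ht).2 𝔮.asIdeal 𝔮.ne_bot hadm
      rw [hcls] at h1
      exact h1.symm)
  refine le_of_eq_of_le ?_ (le_of_le_of_eq h ?_)
  · refine tsum_congr fun 𝔮 => ?_
    congr
  · congr 1
    refine tsum_congr fun p => ?_
    congr

/-- Splitting the `Nat.Primes`-sum of a sum of two indicator weights. -/
theorem cd_tsum_add (F : Type) [Field F] [NumberField F] (Q Q' : ℕ → Prop) {s : ℝ}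
    (hs : 1 < s) :
    (∑' p : Nat.Primes,
      ((open scoped Classical in if Q (p : ℕ) then (idealCount F p : ℝ) else 0) +
        (open scoped Classical in if Q' (p : ℕ) then (idealCount F p : ℝ) else 0)) *
        ((p : ℕ) : ℝ) ^ (-s)) =
      (∑' p : Nat.Primes,
        (open scoped Classical in if Q (p : ℕ) then (idealCount F p : ℝ) else 0) *
          ((p : ℕ) : ℝ) ^ (-s)) +
      (∑' p : Nat.Primes,
        (open scoped Classical in if Q' (p : ℕ) then (idealCount F p : ℝ) else 0) *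
          ((p : ℕ) : ℝ) ^ (-s)) := by
  classical
  have h1 := Fermat.Agent.FrobDensity.summable_weight_mul_rpow (cd_weight_bounded F Q) hs
  have h2 := Fermat.Agent.FrobDensity.summable_weight_mul_rpow (cd_weight_bounded F Q') hs
  rw [← h1.tsum_add h2]
  refine tsum_congr fun p => ?_
  rw [add_mul]

theorem cycDensity_of (hA : EquidistInv) (hC1 : ClsTStatement) (hC2 : CycArtin) : CycDensity := by
  intro F K _ _ _ _ _ _ t ht ht2 ζ hζ χ hχ hinj hneg a ha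
  obtain ⟨τ, hτ⟩ := hneg
  obtain ⟨σ₀, hσ₀⟩ := ha
  classical
  have : Fact t.Prime := ⟨ht⟩
  let _ : Fintype (normSqGroup F t) := Fintype.ofFinite _
  obtain ⟨hfin, hcard⟩ := cd_finrank_fixed hC2 ht ht2 hζ χ hχ hinj hτ
  have hRC := (hC1 F t ht).1
  -- hypothesis of (A)
  have htight := Fermat.Agent.F4Ray.rayPrimeSum F
    (IntermediateField.fixedField (cdSqHom χ).ker) (Ideal.span {(t : 𝓞 F)}) hRC.m_ne_bot
    (clsT F t)
    (fun A hA' hAm => cd_clsT_relNorm hC1 hC2 ht hζ χ hχ _ le_rfl A hA' hAm)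
  rw [hfin, Nat.card_eq_fintype_card] at htight
  -- the class of `a²`
  have ha2 : a ^ 2 ∈ normSqGroup F t := by
    rw [cd_normSqGroup_eq hC2 ht hζ χ hχ hinj]
    exact ⟨σ₀, by rw [cdSqHom_apply, hσ₀]⟩
  obtain ⟨B, δ, hδ, hB⟩ := hA F _ _ (clsT F t) hRC htight ⟨a ^ 2, ha2⟩
  refine ⟨B + 2 * ((Module.finrank ℚ F : ℝ) * ∑' n : ℕ, ((n : ℝ) ^ 2)⁻¹), δ, hδ,
    fun s hs hsδ => ?_⟩
  have h1 := hB s hs hsδ
  -- the constant
  have hc : (2 / (Fintype.card (normSqGroup F t) : ℝ)) = 4 / (Module.finrank F K : ℝ) := by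
    rw [← hcard, ← Nat.card_eq_fintype_card]
    have hpos : (0 : ℝ) < (Nat.card (normSqGroup F t) : ℝ) := by
      exact_mod_cast Nat.card_pos
    push_cast
    field_simp
    ring
  rw [hc] at h1
  -- split the sum over the primes of `F`
  have hsX : ∀ u : normSqGroup F t, Summable (fun 𝔮 : HeightOneSpectrum (𝓞 F) =>
      if 𝔮.asIdeal ⊔ Ideal.span {(t : 𝓞 F)} = ⊤ ∧ clsT F t 𝔮.asIdeal = u
        then normWeight F s 𝔮.asIdeal else 0) := by
    intro u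
    refine Summable.of_nonneg_of_le (fun 𝔮 => ?_) (fun 𝔮 => ?_)
      (Fermat.Agent.FrobDensity.summable_normWeight_prime F hs)
    · split_ifs
      · exact Fermat.Agent.FrobDensity.normWeight_nonneg s _
      · exact le_rfl
    · split_ifs
      · exact le_rfl
      · exact Fermat.Agent.FrobDensity.normWeight_nonneg s _
  have h1a : (4 / (Module.finrank F K : ℝ)) * Real.log (1 / (s - 1)) - B ≤
      ∑' 𝔮 : HeightOneSpectrum (𝓞 F),
        ((if 𝔮.asIdeal ⊔ Ideal.span {(t : 𝓞 F)} = ⊤ ∧ clsT F t 𝔮.asIdeal = ⟨a ^ 2, ha2⟩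
            then normWeight F s 𝔮.asIdeal else 0) +
          (if 𝔮.asIdeal ⊔ Ideal.span {(t : 𝓞 F)} = ⊤ ∧
              clsT F t 𝔮.asIdeal = (⟨a ^ 2, ha2⟩ : normSqGroup F t)⁻¹
            then normWeight F s 𝔮.asIdeal else 0)) := by
    refine le_of_le_of_eq h1 ?_
    refine tsum_congr fun 𝔮 => ?_
    congr
  rw [(hsX _).tsum_add (hsX _)] at h1a
  have hX := cd_class_tsum_le hC1 F ht ⟨a ^ 2, ha2⟩ hs
  have hY := cd_class_tsum_le hC1 F ht (⟨a ^ 2, ha2⟩ : normSqGroup F t)⁻¹ hs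
  have hhigh := Fermat.Agent.FrobDensity.highSum_le F hs
  have hsplit := cd_tsum_add F
    (fun n => ((n : ℕ) : ZMod t) ^ 2 = ((a : (ZMod t)ˣ) : ZMod t) ^ 2)
    (fun n => ((n : ℕ) : ZMod t) ^ 2 = ((a⁻¹ : (ZMod t)ˣ) : ZMod t) ^ 2) hs
  have e1 : (((⟨a ^ 2, ha2⟩ : normSqGroup F t) : (ZMod t)ˣ) : ZMod t)
      = ((a : (ZMod t)ˣ) : ZMod t) ^ 2 := by
    rw [← Units.val_pow_eq_pow_val]
  have e2 : ((((⟨a ^ 2, ha2⟩ : normSqGroup F t)⁻¹ : normSqGroup F t) : (ZMod t)ˣ) : ZMod t)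
      = ((a⁻¹ : (ZMod t)ˣ) : ZMod t) ^ 2 := by
    rw [← Units.val_pow_eq_pow_val, inv_pow]
    rfl
  rw [e1] at hX
  rw [e2] at hY
  have hgoal : (∑' p : Nat.Primes,
      ((if (((p : ℕ) : ZMod t)) ^ 2 = ((a : (ZMod t)ˣ) : ZMod t) ^ 2
          then (idealCount F p : ℝ) else 0) +
        (if (((p : ℕ) : ZMod t)) ^ 2 = ((a⁻¹ : (ZMod t)ˣ) : ZMod t) ^ 2
          then (idealCount F p : ℝ) else 0)) * ((p : ℕ) : ℝ) ^ (-s))
      = ∑' p : Nat.Primes,
      ((if (((p : ℕ) : ZMod t)) ^ 2 = ((a : (ZMod t)ˣ) : ZMod t) ^ 2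
          then (idealCount F p : ℝ) else 0) +
        (if (((p : ℕ) : ZMod t)) ^ 2 = ((a⁻¹ : (ZMod t)ˣ) : ZMod t) ^ 2
          then (idealCount F p : ℝ) else 0)) * ((p : ℕ) : ℝ) ^ (-s) := rfl
  have hfinal : (∑' p : Nat.Primes,
      ((if (((p : ℕ) : ZMod t)) ^ 2 = ((a : (ZMod t)ˣ) : ZMod t) ^ 2
          then (idealCount F p : ℝ) else 0) +
        (if (((p : ℕ) : ZMod t)) ^ 2 = ((a⁻¹ : (ZMod t)ˣ) : ZMod t) ^ 2
          then (idealCount F p : ℝ) else 0)) * ((p : ℕ) : ℝ) ^ (-s))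
      = (∑' p : Nat.Primes,
        (if (((p : ℕ) : ZMod t)) ^ 2 = ((a : (ZMod t)ˣ) : ZMod t) ^ 2
          then (idealCount F p : ℝ) else 0) * ((p : ℕ) : ℝ) ^ (-s)) +
      (∑' p : Nat.Primes,
        (if (((p : ℕ) : ZMod t)) ^ 2 = ((a⁻¹ : (ZMod t)ˣ) : ZMod t) ^ 2
          then (idealCount F p : ℝ) else 0) * ((p : ℕ) : ℝ) ^ (-s)) := by
    refine Eq.trans ?_ (Eq.trans hsplit ?_)
    · refine tsum_congr fun p => ?_
      congr
    · congr 1
      · refine tsum_congr fun p => ?_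
        congr
      · refine tsum_congr fun p => ?_
        congr
  have hX' : (∑' 𝔮 : HeightOneSpectrum (𝓞 F),
      if 𝔮.asIdeal ⊔ Ideal.span {(t : 𝓞 F)} = ⊤ ∧ clsT F t 𝔮.asIdeal = ⟨a ^ 2, ha2⟩
        then normWeight F s 𝔮.asIdeal else 0) ≤
      (∑' p : Nat.Primes,
        (if (((p : ℕ) : ZMod t)) ^ 2 = ((a : (ZMod t)ˣ) : ZMod t) ^ 2
          then (idealCount F p : ℝ) else 0) * ((p : ℕ) : ℝ) ^ (-s)) + highSum F s := by
    refine le_of_eq_of_le ?_ (le_of_le_of_eq hX ?_)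
    · refine tsum_congr fun 𝔮 => ?_
      congr
    · congr 1
  have hY' : (∑' 𝔮 : HeightOneSpectrum (𝓞 F),
      if 𝔮.asIdeal ⊔ Ideal.span {(t : 𝓞 F)} = ⊤ ∧
          clsT F t 𝔮.asIdeal = (⟨a ^ 2, ha2⟩ : normSqGroup F t)⁻¹
        then normWeight F s 𝔮.asIdeal else 0) ≤
      (∑' p : Nat.Primes,
        (if (((p : ℕ) : ZMod t)) ^ 2 = ((a⁻¹ : (ZMod t)ˣ) : ZMod t) ^ 2
          then (idealCount F p : ℝ) else 0) * ((p : ℕ) : ℝ) ^ (-s)) + highSum F s := by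
    refine le_of_eq_of_le ?_ (le_of_le_of_eq hY ?_)
    · refine tsum_congr fun 𝔮 => ?_
      congr
    · congr 1
  have hmain : (4 / (Module.finrank F K : ℝ)) * Real.log (1 / (s - 1))
      - (B + 2 * ((Module.finrank ℚ F : ℝ) * ∑' n : ℕ, ((n : ℝ) ^ 2)⁻¹)) ≤
      ∑' p : Nat.Primes,
      ((if (((p : ℕ) : ZMod t)) ^ 2 = ((a : (ZMod t)ˣ) : ZMod t) ^ 2
          then (idealCount F p : ℝ) else 0) +
        (if (((p : ℕ) : ZMod t)) ^ 2 = ((a⁻¹ : (ZMod t)ˣ) : ZMod t) ^ 2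
          then (idealCount F p : ℝ) else 0)) * ((p : ℕ) : ℝ) ^ (-s) := by
    rw [hfinal]
    have h1' : (4 / (Module.finrank F K : ℝ)) * Real.log (1 / (s - 1)) - B ≤
        (∑' 𝔮 : HeightOneSpectrum (𝓞 F),
          if 𝔮.asIdeal ⊔ Ideal.span {(t : 𝓞 F)} = ⊤ ∧ clsT F t 𝔮.asIdeal = ⟨a ^ 2, ha2⟩
            then normWeight F s 𝔮.asIdeal else 0) +
        (∑' 𝔮 : HeightOneSpectrum (𝓞 F),
          if 𝔮.asIdeal ⊔ Ideal.span {(t : 𝓞 F)} = ⊤ ∧
              clsT F t 𝔮.asIdeal = (⟨a ^ 2, ha2⟩ : normSqGroup F t)⁻¹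
            then normWeight F s 𝔮.asIdeal else 0) := by
      exact h1a
    linarith
  refine le_of_le_of_eq hmain ?_
  refine tsum_congr fun p => ?_
  congr

end Fermat.Agent.S48Cheb
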