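import Fermat.Agent.S48.Cheb.Defs
import Fermat.Agent.S48.Cheb.CycField.Irred
import Fermat.Agent.S48.Cheb.CycField.Galois

/-!
# S48 P5 seat (E): the field `L(ζ_t)` over `E`  (helper8)

* `t`: a prime `> 2`, `≡ 1 mod M`, outside the finite set of primes ramified in `L/ℚ`
  (`cf_exists_prime`); `Φ_t` is irreducible over `L` by Eisenstein (`cf_irreducible_cyclotomic`).
* `K = CyclotomicField t L`; `K/E` is Galois (`cf_isGalois`),
  of degree `[L:E] (t-1)` (`cf_finrank`); `σ ↦ (σ|_L, χ σ)` is surjective (`cf_exists`) and
  injective (`cf_eq_one`).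
-/

set_option autoImplicit false

open NumberField Polynomial

namespace Fermat.Agent.S48Cheb

theorem cycField : CycField := by
  intro E L _ _ _ _ _ _ M hM
  obtain ⟨t, ht, ht2, hmod, P, hP, htP, htP2⟩ := cf_exists_prime L M hM
  have hirr := cf_irreducible_cyclotomic L t ht P hP htP htP2
  haveI : NeZero t := ⟨ht.ne_zero⟩
  haveI nf : NumberField (CyclotomicField t L) :=
    IsCyclotomicExtension.numberField {t} L (CyclotomicField t L)
  haveI : FiniteDimensional E L := Module.Finite.of_restrictScalars_finite ℚ E L
  haveI gal : IsGalois E (CyclotomicField t L) := cf_isGalois E L (CyclotomicField t L) t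
  refine ⟨t, ht, ht2, hmod, CyclotomicField t L, inferInstance, nf, inferInstance, inferInstance,
    inferInstance,
    gal, IsCyclotomicExtension.zeta t L (CyclotomicField t L),
    IsCyclotomicExtension.zeta_spec t L (CyclotomicField t L),
    cf_finrank E L (CyclotomicField t L) t ht hirr, ?_, ?_⟩
  · intro g a
    exact cf_exists E L (CyclotomicField t L) t hirr g a
  · intro σ hres hσ
    exact cf_eq_one E L (CyclotomicField t L) t _
      (IsCyclotomicExtension.zeta_spec t L (CyclotomicField t L)) σ hres hσ

end Fermat.Agent.S48Cheb
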