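import Mathlib
import Fermat.Agent.S48.Defs
import Fermat.Agent.F4.Ray.Defs
import Fermat.Agent.Lib.FrobDensity.EulerZeta

/-!
# S48 (P5) Chebotarev up to inversion, lower bound — interface statements

Blueprint: `NOTES/blueprint-S48-P5.md` (sub-architect helper8).  Target:
`Fermat.Agent.S48.ChebotarevStatement` (helper22's `S48/Defs.lean`).

Chain (every arrow is one seat, proved in its own file):
```
 ChebotarevStatement  <= GaloisCheb                         (H  : S48/Cheb/Consumer.lean)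
 GaloisCheb           <= CyclicCheb                         (G  : S48/Cheb/Deuring.lean)
 CyclicCheb           <= Crossing + CycField                (F  : S48/Cheb/Cyclic.lean)
 Crossing             <= CycDensity + CycArtin              (D  : S48/Cheb/Crossing.lean)
 CycDensity           <= EquidistInv + CycArtin + ClsT + Lib/FrobDensity   (C : S48/Cheb/CycDensity.lean)
 EquidistInv          <= F4/Ray (rayLBound, rayEuler)       (A  : S48/Cheb/Equidist.lean)
 CycArtin, ClsT, CycField : Mathlib only                    (C2, C1, E)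
```
Never edit this file (other files depend on the exact statements); ask helper8.
-/

set_option autoImplicit false

open NumberField IsDedekindDomain

namespace Fermat.Agent.S48Cheb

open Fermat.Agent.FrobDensity (normWeight idealCount)

/-! ## Lower logarithmic density of a weight on the primes -/

/-- Sharp form: `∑_p w(p) p^{-s} ≥ c log (1/(s-1)) - B` for `s` close to `1`. -/
def LowerSharp (w : Nat.Primes → ℝ) (c : ℝ) : Prop :=
  ∃ B δ : ℝ, 0 < δ ∧ ∀ s : ℝ, 1 < s → s < 1 + δ →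
    c * Real.log (1 / (s - 1)) - B ≤ ∑' p : Nat.Primes, w p * ((p : ℕ) : ℝ) ^ (-s)

/-- Limit form: `LowerSharp w (c - ε)` for every `ε > 0`. -/
def LowerLim (w : Nat.Primes → ℝ) (c : ℝ) : Prop :=
  ∀ ε : ℝ, 0 < ε → LowerSharp w (c - ε)

/-! ## Counting functions -/

/-- The number of ideals `𝔮` of `𝓞 E` of norm `p` such that `g ∈ Gal(L/E)` is a Frobenius
element at some prime `P` of `𝓞 L` over `𝔮` (`g x ≡ x ^ p mod P`). -/
noncomputable def frobCount (E L : Type) [Field E] [NumberField E] [Field L] [NumberField L]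
    [Algebra E L] (g : L ≃ₐ[E] L) (p : ℕ) : ℕ :=
  Nat.card {𝔮 : Ideal (𝓞 E) // Ideal.absNorm 𝔮 = p ∧
    ∃ P : Ideal (𝓞 L), P.IsPrime ∧ P.LiesOver 𝔮 ∧ ∀ x : 𝓞 L, g • x - x ^ p ∈ P}

/-- `g ∈ Gal(L/ℚ)` is a Frobenius element at some prime of `𝓞 L` over `p`. -/
def Hit (L : Type) [Field L] [NumberField L] (g : L ≃ₐ[ℚ] L) (p : ℕ) : Prop :=
  ∃ P : Ideal (𝓞 L), P.IsPrime ∧ (p : 𝓞 L) ∈ P ∧ ∀ x : 𝓞 L, g • x - x ^ p ∈ P

/-! ## (A) Equidistribution up to inversion for a generalised ideal class map -/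

/-- **(A)** Let `cls` be a generalised ideal class map of `F` of modulus `m` with values in the
finite abelian group `G` (`F4Ray.RayClassMap`), such that the primes with `cls = 1` have lower
density `≥ 1/|G|` (sharp form).  Then for every `a : G` the primes with `cls ∈ {a, a⁻¹}` have
lower density `≥ 2/|G|` (sharp form, the two indicators are ADDED). -/
def EquidistInv : Prop :=
  ∀ (F : Type) [Field F] [NumberField F] (m : Ideal (𝓞 F)) (G : Type) [CommGroup G] [Fintype G]
    (cls : Ideal (𝓞 F) → G), F4Ray.RayClassMap F m G cls →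
    (∃ B δ : ℝ, 0 < δ ∧ ∀ s : ℝ, 1 < s → s < 1 + δ →
      (1 / (Fintype.card G : ℝ)) * Real.log (1 / (s - 1)) - B ≤
        ∑' 𝔮 : HeightOneSpectrum (𝓞 F),
          open scoped Classical in
          if 𝔮.asIdeal ⊔ m = ⊤ ∧ cls 𝔮.asIdeal = 1 then normWeight F s 𝔮.asIdeal else 0) →
    ∀ a : G, ∃ B δ : ℝ, 0 < δ ∧ ∀ s : ℝ, 1 < s → s < 1 + δ →
      (2 / (Fintype.card G : ℝ)) * Real.log (1 / (s - 1)) - B ≤
        ∑' 𝔮 : HeightOneSpectrum (𝓞 F),
          open scoped Classical in
          ((if 𝔮.asIdeal ⊔ m = ⊤ ∧ cls 𝔮.asIdeal = a then normWeight F s 𝔮.asIdeal else 0) +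
            (if 𝔮.asIdeal ⊔ m = ⊤ ∧ cls 𝔮.asIdeal = a⁻¹ then normWeight F s 𝔮.asIdeal else 0))

/-! ## (C1) The class map "square of the norm modulo `t`" -/

/-- The squares of the norms modulo `t` of the nonzero ideals of `𝓞 F` prime to `t`. -/
def normSqSet (F : Type) [Field F] [NumberField F] (t : ℕ) : Set (ZMod t)ˣ :=
  {u | ∃ I : Ideal (𝓞 F), I ≠ ⊥ ∧ I ⊔ Ideal.span {(t : 𝓞 F)} = ⊤ ∧
    ((u : (ZMod t)ˣ) : ZMod t) = ((Ideal.absNorm I : ℕ) : ZMod t) ^ 2}

/-- The subgroup of `(ℤ/t)ˣ` generated by `normSqSet` (it is equal to it, for `t` prime). -/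
def normSqGroup (F : Type) [Field F] [NumberField F] (t : ℕ) : Subgroup (ZMod t)ˣ :=
  Subgroup.closure (normSqSet F t)

open scoped Classical in
/-- The class map `I ↦ N(I)² mod t` with values in `normSqGroup F t` (value `1` when `N(I)²` is
not in the group, which does not happen for the ideals prime to `t`). -/
noncomputable def clsT (F : Type) [Field F] [NumberField F] (t : ℕ) :
    Ideal (𝓞 F) → normSqGroup F t := fun I =>
  if h : ∃ u : normSqGroup F t,
      (((u : normSqGroup F t) : (ZMod t)ˣ) : ZMod t) = ((Ideal.absNorm I : ℕ) : ZMod t) ^ 2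
    then h.choose else 1

/-- **(C1)** `clsT` is a generalised ideal class map of modulus `(t)`, with the expected
values.  (Ray condition: `N(1 + t b) ≡ 1 mod t` by `Algebra.norm_one_add_smul`, and
`absNorm (a) = |N a|`, so the SQUARE of the absolute norm is `1`; surjectivity: the set of values
is closed under multiplication in a finite group.) -/
def ClsTStatement : Prop :=
  ∀ (F : Type) [Field F] [NumberField F] (t : ℕ), t.Prime →
    F4Ray.RayClassMap F (Ideal.span {(t : 𝓞 F)}) (normSqGroup F t) (clsT F t) ∧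
    ∀ I : Ideal (𝓞 F), I ≠ ⊥ → I ⊔ Ideal.span {(t : 𝓞 F)} = ⊤ →
      ((((clsT F t I : normSqGroup F t)) : (ZMod t)ˣ) : ZMod t) =
        ((Ideal.absNorm I : ℕ) : ZMod t) ^ 2

/-! ## (C2) Frobenius elements act on `t`-th roots of unity through the norm -/

/-- **(C2)** `K/F` number fields, `ζ ∈ K` a primitive `t`-th root of unity (`t` prime),
`P` a prime of `𝓞 K` not containing `t`, `φ ∈ Gal(K/F)` with `φ x ≡ x ^ q mod P` on `𝓞 K` and
`φ ζ = ζ ^ c`.  Then `q ≡ c mod t`. -/
def CycArtin : Prop :=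
  ∀ (F K : Type) [Field F] [NumberField F] [Field K] [NumberField K] [Algebra F K]
    (t : ℕ), t.Prime → ∀ (ζ : K), IsPrimitiveRoot ζ t →
    ∀ (P : Ideal (𝓞 K)), P.IsPrime → (t : 𝓞 K) ∉ P →
    ∀ (φ : K ≃ₐ[F] K) (q c : ℕ), (∀ x : 𝓞 K, φ • x - x ^ q ∈ P) → φ ζ = ζ ^ c →
      (q : ZMod t) = (c : ZMod t)

/-! ## (C) Density of the primes of `F` with given norm `± a ^ ± 1` modulo `t` -/

/-- **(C)** `K/F` Galois, `ζ ∈ K` a primitive `t`-th root of unity (`t` an odd prime),
`χ : Gal(K/F) → (ℤ/t)ˣ` the cyclotomic character, INJECTIVE, with `-1` in its image.  For `a` in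
the image of `χ`, the ideals of `𝓞 F` of prime norm `p ≡ ± a` and those of prime norm
`p ≡ ± a⁻¹` (weights added) have lower density `≥ 4/[K:F]` (sharp form). -/
def CycDensity : Prop :=
  ∀ (F K : Type) [Field F] [NumberField F] [Field K] [NumberField K] [Algebra F K] [IsGalois F K]
    (t : ℕ), t.Prime → t ≠ 2 → ∀ (ζ : K), IsPrimitiveRoot ζ t →
    ∀ χ : (K ≃ₐ[F] K) →* (ZMod t)ˣ, (∀ σ : K ≃ₐ[F] K, σ ζ = ζ ^ ((χ σ : (ZMod t)ˣ) : ZMod t).val) →
    Function.Injective χ → (∃ σ, χ σ = -1) → ∀ a : (ZMod t)ˣ, a ∈ Set.range χ →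
    LowerSharp (fun p =>
      (open scoped Classical in
        if (((p : ℕ) : ZMod t)) ^ 2 = ((a : (ZMod t)ˣ) : ZMod t) ^ 2
          then (idealCount F p : ℝ) else 0) +
      (open scoped Classical in
        if (((p : ℕ) : ZMod t)) ^ 2 = ((a⁻¹ : (ZMod t)ˣ) : ZMod t) ^ 2
          then (idealCount F p : ℝ) else 0))
      (4 / (Module.finrank F K : ℝ))

/-! ## (D) Crossing -/

/-- **(D)** `E ⊆ L ⊆ K`, `L/E` and `K/E` Galois, `ζ ∈ K` a primitive `t`-th root of unity,
`σ ∈ Gal(K/E)` with `σ ζ = ζ ^ a`, such that `χ` is injective on `⟨σ⟩` (`h1`) and some power of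
`σ` acts as `-1` on `ζ` and trivially on `L` (`h2`).  With `g = σ|_L`: the primes of `E` of prime
norm `p ≡ ± a` with Frobenius `g` and those of norm `p ≡ ± a⁻¹` with Frobenius `g⁻¹` (weights
added) have lower density `≥ 4/[K:E]` (sharp form). -/
def Crossing : Prop :=
  ∀ (E L K : Type) [Field E] [NumberField E] [Field L] [NumberField L] [Field K] [NumberField K]
    [Algebra E L] [Algebra L K] [Algebra E K] [IsScalarTower E L K] [IsGalois E L] [IsGalois E K]
    (t : ℕ), t.Prime → t ≠ 2 → ∀ (ζ : K), IsPrimitiveRoot ζ t →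
    ∀ (σ : K ≃ₐ[E] K) (a : (ZMod t)ˣ), σ ζ = ζ ^ ((a : (ZMod t)ˣ) : ZMod t).val →
    (∀ j : ℕ, a ^ j = 1 → σ ^ j = 1) →
    (∃ j : ℕ, a ^ j = -1 ∧ AlgEquiv.restrictNormalHom L (σ ^ j) = 1) →
    LowerSharp (fun p =>
      (open scoped Classical in
        if (((p : ℕ) : ZMod t)) ^ 2 = ((a : (ZMod t)ˣ) : ZMod t) ^ 2
          then (frobCount E L (AlgEquiv.restrictNormalHom L σ) p : ℝ) else 0) +
      (open scoped Classical in
        if (((p : ℕ) : ZMod t)) ^ 2 = ((a⁻¹ : (ZMod t)ˣ) : ZMod t) ^ 2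
          then (frobCount E L (AlgEquiv.restrictNormalHom L σ)⁻¹ p : ℝ) else 0))
      (4 / (Module.finrank E K : ℝ))

/-! ## (E) The cyclotomic extension `L(ζ_t)` of `L` over `E` -/

/-- **(E)** For `L/E` Galois and every `M ≠ 0` there are an odd prime `t ≡ 1 mod M` and a number
field `K ⊇ L`, Galois over `E` of degree `[L:E] (t - 1)`, containing a primitive `t`-th root of
unity `ζ`, such that `(σ|_L, χ(σ))` takes every value in `Gal(L/E) × (ℤ/t)ˣ` and is injective.
(`K = L(ζ_t)` for `t` unramified in `L`: `Φ_t` is irreducible over `L` by Eisenstein.) -/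
def CycField : Prop :=
  ∀ (E L : Type) [Field E] [NumberField E] [Field L] [NumberField L] [Algebra E L] [IsGalois E L]
    (M : ℕ), M ≠ 0 →
    ∃ t : ℕ, t.Prime ∧ t ≠ 2 ∧ t ≡ 1 [MOD M] ∧
    ∃ (K : Type) (_ : Field K) (_ : NumberField K) (_ : Algebra L K) (_ : Algebra E K)
      (_ : IsScalarTower E L K) (_ : IsGalois E K) (ζ : K), IsPrimitiveRoot ζ t ∧
      Module.finrank E K = Module.finrank E L * (t - 1) ∧
      (∀ (g : L ≃ₐ[E] L) (a : (ZMod t)ˣ), ∃ σ : K ≃ₐ[E] K,
        AlgEquiv.restrictNormalHom L σ = g ∧ σ ζ = ζ ^ ((a : (ZMod t)ˣ) : ZMod t).val) ∧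
      (∀ σ : K ≃ₐ[E] K, AlgEquiv.restrictNormalHom L σ = 1 → σ ζ = ζ → σ = 1)

/-! ## (F) Chebotarev up to inversion for cyclic extensions, degree-one primes -/

/-- **(F)** `L/E` cyclic with generator `g`: the primes of `E` of prime norm with Frobenius `g`
and those with Frobenius `g⁻¹` (weights added) have lower density `≥ 2/[L:E]` (limit form). -/
def CyclicCheb : Prop :=
  ∀ (E L : Type) [Field E] [NumberField E] [Field L] [NumberField L] [Algebra E L] [IsGalois E L]
    (g : L ≃ₐ[E] L), (∀ h : L ≃ₐ[E] L, h ∈ Subgroup.zpowers g) →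
    LowerLim (fun p => (frobCount E L g p : ℝ) + (frobCount E L g⁻¹ p : ℝ))
      (2 / (Module.finrank E L : ℝ))

/-! ## (G) Chebotarev up to inversion for Galois extensions of `ℚ` -/

/-- **(G)** `L/ℚ` Galois, `g ∈ Gal(L/ℚ)`: the primes `p` at which `g` is a Frobenius element and
those at which `g⁻¹` is one (indicators added) have lower density `≥ 2/|C_G(g)|` (limit form),
even after removing a finite set `S` of primes. -/
def GaloisCheb : Prop :=
  ∀ (L : Type) [Field L] [NumberField L] [IsGalois ℚ L] (g : L ≃ₐ[ℚ] L) (S : Finset ℕ),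
    LowerLim (fun p =>
      (open scoped Classical in if (p : ℕ) ∉ S ∧ Hit L g p then (1 : ℝ) else 0) +
      (open scoped Classical in if (p : ℕ) ∉ S ∧ Hit L g⁻¹ p then (1 : ℝ) else 0))
      (2 / (Nat.card (Subgroup.centralizer ({g} : Set (L ≃ₐ[ℚ] L))) : ℝ))

end Fermat.Agent.S48Cheb
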