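import Fermat.Agent.S48.Cheb.Defs
import Fermat.Agent.S48.Cheb.Cyclic.Count
import Fermat.Agent.S48.Cheb.Cyclic.Sum
import Fermat.Agent.S48.Cheb.Cyclic.Good

/-!
# S48 P5 seat (F): the cyclic case (helper7) — PROVED (see NOTES/blueprint-S48-P5.md)

Plan.  `m = [L:E] = orderOf g`, `ε > 0`; `k` with `4 / 2^k ≤ ε`; (E) with `M = (2m)^k`.
`a ∈ (ℤ/t)ˣ` is GOOD if `2m ∣ orderOf a`.  For good `a` take `σ` with `σ|_L = g`, `χ σ = a`:
`h1`: `a^j = 1 ⟹ m ∣ j ⟹ (σ^j)|_L = 1, σ^j ζ = ζ ⟹ σ^j = 1`;  `h2`: `j = orderOf a / 2`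
(`a^j = -1` as `x² = 1 ⟹ x = ± 1` in the field `ZMod t`).  (D) gives `LowerSharp (w_a) (4/(m (t-1)))`.
`∑_{a good} w_a p ≤ 2 (frobCount g p + frobCount g⁻¹ p)` (`x² = c` has `≤ 2` roots).
`#bad ≤ ∑_{ℓ ∣ 2m prime} #{a : a^((t-1)/ℓ^k) = 1} ≤ 2m (t-1)/2^k` (`IsCyclic.card_pow_eq_one_le`).
-/

set_option autoImplicit false

namespace Fermat.Agent.S48Cheb

open NumberField Fermat.Agent.FrobDensity

theorem cyclicCheb_of (hD : Crossing) (hE : CycField) : CyclicCheb := by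
  classical
  intro E L _ _ _ _ _ _ g hg ε hε
  set m := Module.finrank E L with hm
  have hmpos : 0 < m := Module.finrank_pos
  have hcard : Nat.card (L ≃ₐ[E] L) = m := IsGalois.card_aut_eq_finrank E L
  have hgm : g ^ m = 1 := by
    rw [← hcard]
    exact pow_card_eq_one'
  have hgpow : ∀ j : ℕ, m ∣ j → g ^ j = 1 := by
    rintro j ⟨c, rfl⟩
    rw [pow_mul, hgm, one_pow]
  -- the exponent `k`
  obtain ⟨k, hk1, hk⟩ : ∃ k : ℕ, 1 ≤ k ∧ (4 : ℝ) / 2 ^ k ≤ ε := by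
    obtain ⟨k, hk⟩ := pow_unbounded_of_one_lt (4 / ε) (one_lt_two : (1 : ℝ) < 2)
    refine ⟨k + 1, Nat.le_add_left 1 k, ?_⟩
    have h2 : (0 : ℝ) < 2 ^ (k + 1) := by positivity
    rw [div_le_iff₀ h2]
    have h3 : 4 / ε * ε = 4 := div_mul_cancel₀ 4 hε.ne'
    have h4 : (2 : ℝ) ^ k ≤ 2 ^ (k + 1) := pow_le_pow_right₀ (by norm_num) (Nat.le_succ k)
    nlinarith
  have h2m : 2 * m ≠ 0 := by omega
  have hM : (2 * m) ^ k ≠ 0 := pow_ne_zero _ h2m
  obtain ⟨t, ht, ht2, htM, K, iF, iNF, iLK, iEK, iST, iGal, ζ, hζ, hfr, hsurj, hinj⟩ :=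
    hE E L ((2 * m) ^ k) hM
  haveI : Fact t.Prime := ⟨ht⟩
  have hcardU : Fintype.card (ZMod t)ˣ = t - 1 := ZMod.card_units t
  have hdvdU : (2 * m) ^ k ∣ Fintype.card (ZMod t)ˣ := by
    rw [hcardU]
    exact (Nat.modEq_iff_dvd' ht.one_le).mp htM.symm
  set Good : Finset (ZMod t)ˣ := Finset.univ.filter fun a => 2 * m ∣ orderOf a with hGood
  set F : Nat.Primes → ℝ := fun p => (frobCount E L g p : ℝ) + (frobCount E L g⁻¹ p : ℝ)
    with hF
  let w : (ZMod t)ˣ → Nat.Primes → ℝ := fun a p =>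
    (if (((p : ℕ) : ZMod t)) ^ 2 = ((a : (ZMod t)ˣ) : ZMod t) ^ 2
      then (frobCount E L g p : ℝ) else 0) +
    (if (((p : ℕ) : ZMod t)) ^ 2 = ((a⁻¹ : (ZMod t)ˣ) : ZMod t) ^ 2
      then (frobCount E L g⁻¹ p : ℝ) else 0)
  -- (D) for the good `a`
  have hw : ∀ a ∈ Good, LowerSharp (w a) (4 / (Module.finrank E K : ℝ)) := by
    intro a ha
    obtain ⟨σ, hσg, hσζ⟩ := hsurj g a
    have h2ma : 2 * m ∣ orderOf a := (Finset.mem_filter.mp ha).2
    have h1 : ∀ j : ℕ, a ^ j = 1 → σ ^ j = 1 := by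
      intro j hj
      apply hinj
      · rw [map_pow, hσg]
        exact hgpow j ((Dvd.intro_left 2 rfl).trans (h2ma.trans (orderOf_dvd_of_pow_eq_one hj)))
      · rw [cyc_pow_apply hζ σ a hσζ j, hj, Units.val_one, ZMod.val_one, pow_one]
    have h2 : ∃ j : ℕ, a ^ j = -1 ∧ AlgEquiv.restrictNormalHom L (σ ^ j) = 1 := by
      obtain ⟨c, hc⟩ := h2ma
      refine ⟨m * c, cyc_pow_half_eq_neg_one a (m * c) (by rw [hc]; ring), ?_⟩
      rw [map_pow, hσg]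
      exact hgpow _ (Dvd.intro _ rfl)
    have h3 := hD E L K t ht ht2 ζ hζ σ a hσζ h1 h2
    rw [hσg] at h3
    exact h3
  -- boundedness
  have hFnn : ∀ p, 0 ≤ F p := fun p => by positivity
  have hFle : ∀ p, F p ≤ 2 * (Module.finrank ℚ E : ℝ) := by
    intro p
    have h1 := cyc_frobCount_le E L g p
    have h2 := cyc_frobCount_le E L g⁻¹ p
    simp only [hF]
    linarith
  have hwnn : ∀ a p, 0 ≤ w a p := by
    intro a p
    simp only [w]
    positivity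
  have hwle : ∀ a p, w a p ≤ F p := by
    intro a p
    simp only [w, hF]
    refine add_le_add ?_ ?_
    · split_ifs
      · exact le_rfl
      · positivity
    · split_ifs
      · exact le_rfl
      · positivity
  have hbw : ∀ a ∈ Good, ∃ B : ℝ, ∀ p, |w a p| ≤ B := by
    intro a _
    refine ⟨2 * (Module.finrank ℚ E : ℝ), fun p => ?_⟩
    rw [abs_of_nonneg (hwnn a p)]
    exact (hwle a p).trans (hFle p)
  have hb2F : ∃ B : ℝ, ∀ p, |2 * F p| ≤ B := by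
    refine ⟨2 * (2 * (Module.finrank ℚ E : ℝ)), fun p => ?_⟩
    rw [abs_of_nonneg (by have := hFnn p; linarith)]
    have := hFle p
    linarith
  obtain ⟨hsum, hbsum⟩ := cyc_lowerSharp_sum Good w (4 / (Module.finrank E K : ℝ)) hbw hw
  -- pointwise comparison
  have hpt : ∀ p, ∑ a ∈ Good, w a p ≤ 2 * F p := by
    intro p
    simp only [w, Finset.sum_add_distrib, hF]
    have e1 : ∑ a ∈ Good, (if (((p : ℕ) : ZMod t)) ^ 2 = ((a : (ZMod t)ˣ) : ZMod t) ^ 2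
        then (frobCount E L g p : ℝ) else 0)
        = ((Good.filter fun a : (ZMod t)ˣ =>
            (((p : ℕ) : ZMod t)) ^ 2 = ((a : (ZMod t)ˣ) : ZMod t) ^ 2).card : ℝ)
          * (frobCount E L g p : ℝ) := by
      rw [← Finset.sum_filter, Finset.sum_const, nsmul_eq_mul]
    have e2 : ∑ a ∈ Good, (if (((p : ℕ) : ZMod t)) ^ 2 = ((a⁻¹ : (ZMod t)ˣ) : ZMod t) ^ 2
        then (frobCount E L g⁻¹ p : ℝ) else 0)
        = ((Good.filter fun a : (ZMod t)ˣ =>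
            (((p : ℕ) : ZMod t)) ^ 2 = ((a⁻¹ : (ZMod t)ˣ) : ZMod t) ^ 2).card : ℝ)
          * (frobCount E L g⁻¹ p : ℝ) := by
      rw [← Finset.sum_filter, Finset.sum_const, nsmul_eq_mul]
    rw [e1, e2]
    have c1 : ((Good.filter fun a : (ZMod t)ˣ =>
        (((p : ℕ) : ZMod t)) ^ 2 = ((a : (ZMod t)ˣ) : ZMod t) ^ 2).card : ℝ) ≤ 2 := by
      have hc := cyc_card_sq_eq_le t Good (((p : ℕ) : ZMod t))
      exact_mod_cast hc
    have c2 : ((Good.filter fun a : (ZMod t)ˣ =>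
        (((p : ℕ) : ZMod t)) ^ 2 = ((a⁻¹ : (ZMod t)ˣ) : ZMod t) ^ 2).card : ℝ) ≤ 2 := by
      have hc := cyc_card_sq_inv_eq_le t Good (((p : ℕ) : ZMod t))
      exact_mod_cast hc
    have n1 : (0 : ℝ) ≤ (frobCount E L g p : ℝ) := by positivity
    have n2 : (0 : ℝ) ≤ (frobCount E L g⁻¹ p : ℝ) := by positivity
    nlinarith [mul_le_mul_of_nonneg_right c1 n1, mul_le_mul_of_nonneg_right c2 n2]
  have h3 := cyc_lowerSharp_mono hbsum hb2F hpt hsum
  have h4 := cyc_lowerSharp_half h3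
  refine cyc_lowerSharp_const ?_ h4
  -- the count of the good elements
  have hbad := cyc_card_bad_le (U := (ZMod t)ˣ) h2m hk1 hdvdU
  have hsplit : Good.card + (Finset.univ.filter fun a : (ZMod t)ˣ => ¬ 2 * m ∣ orderOf a).card
      = Fintype.card (ZMod t)ˣ := by
    rw [hGood, Finset.card_filter_add_card_filter_not, Finset.card_univ]
  set n := Fintype.card (ZMod t)ˣ with hn
  have hnpos : 0 < n := Fintype.card_pos
  have hfrK : (Module.finrank E K : ℝ) = (m : ℝ) * (n : ℝ) := by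
    have h0 : Module.finrank E K = m * n := by rw [hfr, hcardU]
    rw [h0]
    push_cast
    rfl
  have hdiv : ((n / 2 ^ k : ℕ) : ℝ) ≤ (n : ℝ) / 2 ^ k := by
    have := Nat.cast_div_le (α := ℝ) (m := n) (n := 2 ^ k)
    simpa using this
  have hgood : (n : ℝ) - 2 * m * ((n : ℝ) / 2 ^ k) ≤ (Good.card : ℝ) := by
    have h5 : (n : ℝ) = (Good.card : ℝ)
        + ((Finset.univ.filter fun a : (ZMod t)ˣ => ¬ 2 * m ∣ orderOf a).card : ℝ) := by
      exact_mod_cast hsplit.symm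
    have h6 : ((Finset.univ.filter fun a : (ZMod t)ˣ => ¬ 2 * m ∣ orderOf a).card : ℝ)
        ≤ 2 * m * ((n / 2 ^ k : ℕ) : ℝ) := by
      exact_mod_cast hbad
    have h7 : (2 : ℝ) * m * ((n / 2 ^ k : ℕ) : ℝ) ≤ 2 * m * ((n : ℝ) / 2 ^ k) :=
      mul_le_mul_of_nonneg_left hdiv (by positivity)
    linarith
  rw [hfrK]
  have hmR : (0 : ℝ) < m := by exact_mod_cast hmpos
  have hnR : (0 : ℝ) < n := by exact_mod_cast hnpos
  have hkey : (2 : ℝ) / m - 4 / 2 ^ k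
      = ((n : ℝ) - 2 * m * ((n : ℝ) / 2 ^ k)) * (4 / ((m : ℝ) * n)) / 2 := by
    field_simp
    ring
  have hstep : ((n : ℝ) - 2 * m * ((n : ℝ) / 2 ^ k)) * (4 / ((m : ℝ) * n)) / 2
      ≤ (Good.card : ℝ) * (4 / ((m : ℝ) * n)) / 2 := by
    have hpos : (0 : ℝ) ≤ 4 / ((m : ℝ) * n) := by positivity
    have := mul_le_mul_of_nonneg_right hgood hpos
    linarith
  linarith

end Fermat.Agent.S48Cheb
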