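import Mathlib

/-!
# S48 P5 seat (G), part 1: Deuring's count (helper61)

`L/ℚ` Galois with group `G`, `g ∈ G`, `p` a prime unramified in `L`.  The set `X` of the primes
`P` of `𝓞 L` over `p` at which `g` is a Frobenius element (`g x ≡ x ^ p mod P`) is one orbit of
the centraliser `C_G(g)`, and the stabiliser of a point contains `⟨g⟩`; hence
      `#X · ord(g) ≤ |C_G(g)|`.
-/

set_option autoImplicit false
set_option linter.unusedSectionVars false
set_option linter.style.haveILetI false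

open NumberField
open scoped Pointwise

namespace Fermat.Agent.S48Cheb

section count

variable (L : Type) [Field L] [NumberField L]

/-- The primes `P` of `𝓞 L` over `p` at which `g` is a Frobenius element. -/
def FrobSet (g : L ≃ₐ[ℚ] L) (p : ℕ) : Set (Ideal (𝓞 L)) :=
  {P | P.IsPrime ∧ (p : 𝓞 L) ∈ P ∧ ∀ x : 𝓞 L, g • x - x ^ p ∈ P}

variable {L}

theorem deu_under_int {p : ℕ} (hp : p.Prime) {P : Ideal (𝓞 L)} (hP : P.IsPrime)
    (hpP : (p : 𝓞 L) ∈ P) : P.under ℤ = Ideal.span {(p : ℤ)} := by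
  have : Fact p.Prime := ⟨hp⟩
  have hmax : (Ideal.span {(p : ℤ)}).IsMaximal := Int.ideal_span_isMaximal_of_prime p
  have hle : Ideal.span {(p : ℤ)} ≤ P.under ℤ := by
    rw [Ideal.span_singleton_le_iff_mem, Ideal.under_def, Ideal.mem_comap]
    simpa using hpP
  have hne : P.under ℤ ≠ ⊤ := by
    have : (P.under ℤ).IsPrime := inferInstance
    exact this.ne_top
  exact (hmax.eq_of_le hne hle).symm

theorem deu_card_quot_under {p : ℕ} (hp : p.Prime) {P : Ideal (𝓞 L)} (hP : P.IsPrime)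
    (hpP : (p : 𝓞 L) ∈ P) : Nat.card (ℤ ⧸ P.under ℤ) = p := by
  rw [deu_under_int hp hP hpP]
  exact Int.card_ideal_quot p

theorem deu_ne_bot {p : ℕ} (hp : p.Prime) {P : Ideal (𝓞 L)} (hpP : (p : 𝓞 L) ∈ P) : P ≠ ⊥ := by
  rintro rfl
  have : (p : 𝓞 L) = 0 := by simpa using hpP
  exact hp.ne_zero (by exact_mod_cast this)

variable [IsGalois ℚ L]

theorem deu_isArithFrobAt_iff {p : ℕ} (hp : p.Prime) {P : Ideal (𝓞 L)} (hP : P.IsPrime)
    (hpP : (p : 𝓞 L) ∈ P) (g : L ≃ₐ[ℚ] L) :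
    IsArithFrobAt ℤ g P ↔ ∀ x : 𝓞 L, g • x - x ^ p ∈ P := by
  constructor
  · intro h x
    have := h x
    rw [deu_card_quot_under hp hP hpP] at this
    exact this
  · intro h x
    rw [deu_card_quot_under hp hP hpP]
    exact h x

/-- uniqueness of the Frobenius element at an unramified prime. -/
theorem deu_frob_unique {p : ℕ} (hp : p.Prime) {P : Ideal (𝓞 L)} (hP : P.IsPrime)
    (hpP : (p : 𝓞 L) ∈ P) (hunr : P.ramificationIdx ℤ = 1) {g g' : L ≃ₐ[ℚ] L}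
    (hg : ∀ x : 𝓞 L, g • x - x ^ p ∈ P) (hg' : ∀ x : 𝓞 L, g' • x - x ^ p ∈ P) : g = g' := by
  have H := (deu_isArithFrobAt_iff hp hP hpP g).mpr hg
  have H' := (deu_isArithFrobAt_iff hp hP hpP g').mpr hg'
  have hmem := IsArithFrobAt.mul_inv_mem_inertia H H'
  have hprime : (P.under ℤ).IsPrime := inferInstance
  have hlies : P.LiesOver (P.under ℤ) := ⟨rfl⟩
  have hne : P.under ℤ ≠ ⊥ := by
    intro h
    exact deu_ne_bot hp hpP (Ideal.eq_bot_of_comap_eq_bot h)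
  have hmax : (P.under ℤ).IsMaximal := hprime.isMaximal hne
  have hcard : Nat.card (P.inertia (L ≃ₐ[ℚ] L)) = 1 := by
    rw [Ideal.card_inertia_eq_ramificationIdxIn (P.under ℤ) P,
      Ideal.ramificationIdxIn_eq_ramificationIdx (P.under ℤ) P (L ≃ₐ[ℚ] L)]
    exact hunr
  have hbot : P.inertia (L ≃ₐ[ℚ] L) = ⊥ := Subgroup.card_eq_one.mp hcard
  rw [hbot, Subgroup.mem_bot] at hmem
  exact mul_inv_eq_one.mp hmem

/-- the centraliser of `g` maps `FrobSet g p` to itself. -/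
theorem deu_smul_mem {p : ℕ} (hp : p.Prime) {g σ : L ≃ₐ[ℚ] L} (hσ : σ * g = g * σ)
    {P : Ideal (𝓞 L)} (hP : P ∈ FrobSet L g p) : σ • P ∈ FrobSet L g p := by
  obtain ⟨hPp, hpP, hfrob⟩ := hP
  have hσP : (σ • P).IsPrime := by
    rw [Ideal.pointwise_smul_eq_comap]
    exact Ideal.comap_isPrime _ P
  have hpσP : (p : 𝓞 L) ∈ σ • P := by
    rw [Ideal.pointwise_smul_eq_comap, Ideal.mem_comap, map_natCast]
    exact hpP
  refine ⟨hσP, hpσP, ?_⟩
  have H := (deu_isArithFrobAt_iff hp hPp hpP g).mpr hfrob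
  have H2 := H.conj σ
  have h3 : σ * g * σ⁻¹ = g := by rw [hσ, mul_assoc, mul_inv_cancel, mul_one]
  rw [h3] at H2
  exact (deu_isArithFrobAt_iff hp hσP hpσP g).mp H2

/-- `FrobSet g p` is one orbit of the centraliser of `g`, for `p` unramified. -/
theorem deu_exists_centralizer_smul {p : ℕ} (hp : p.Prime)
    (hunr : ∀ P : Ideal (𝓞 L), P.IsPrime → (p : 𝓞 L) ∈ P → P.ramificationIdx ℤ = 1)
    {g : L ≃ₐ[ℚ] L} {P₀ P : Ideal (𝓞 L)} (hP₀ : P₀ ∈ FrobSet L g p) (hP : P ∈ FrobSet L g p) :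
    ∃ σ : L ≃ₐ[ℚ] L, σ * g = g * σ ∧ P = σ • P₀ := by
  obtain ⟨hP₀p, hpP₀, hfrob₀⟩ := hP₀
  obtain ⟨hPp, hpP, hfrob⟩ := hP
  have hunder : P₀.under ℤ = P.under ℤ := by
    rw [deu_under_int hp hP₀p hpP₀, deu_under_int hp hPp hpP]
  obtain ⟨σ, hσ⟩ := Algebra.IsInvariant.exists_smul_of_under_eq ℤ (𝓞 L) (L ≃ₐ[ℚ] L) P₀ P hunder
  refine ⟨σ, ?_, hσ⟩
  have H := (deu_isArithFrobAt_iff hp hP₀p hpP₀ g).mpr hfrob₀
  have H2 := H.conj σ
  rw [← hσ] at H2
  have h3 := (deu_isArithFrobAt_iff hp hPp hpP (σ * g * σ⁻¹)).mp H2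
  have h4 : σ * g * σ⁻¹ = g := deu_frob_unique hp hPp hpP (hunr P hPp hpP) h3 hfrob
  calc σ * g = σ * g * σ⁻¹ * σ := by rw [inv_mul_cancel_right]
    _ = g * σ := by rw [h4]

/-- `g` stabilises the primes at which it is a Frobenius element. -/
theorem deu_smul_self {p : ℕ} (hp : p.Prime) {g : L ≃ₐ[ℚ] L} {P : Ideal (𝓞 L)}
    (hP : P ∈ FrobSet L g p) : g • P = P := by
  obtain ⟨hPp, hpP, hfrob⟩ := hP
  have H := (deu_isArithFrobAt_iff hp hPp hpP g).mpr hfrob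
  exact MulAction.mem_stabilizer_iff.mp H.mem_stabilizer

theorem deu_zpowers_smul {p : ℕ} (hp : p.Prime) {g : L ≃ₐ[ℚ] L} {P : Ideal (𝓞 L)}
    (hP : P ∈ FrobSet L g p) {z : L ≃ₐ[ℚ] L} (hz : z ∈ Subgroup.zpowers g) : z • P = P := by
  have hle : Subgroup.zpowers g ≤ MulAction.stabilizer (L ≃ₐ[ℚ] L) P := by
    rw [Subgroup.zpowers_le]
    exact MulAction.mem_stabilizer_iff.mpr (deu_smul_self hp hP)
  exact MulAction.mem_stabilizer_iff.mp (hle hz)

theorem deu_finite_frobSet {p : ℕ} (hp : p.Prime) (g : L ≃ₐ[ℚ] L) : (FrobSet L g p).Finite := by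
  have h1 : (Ideal.primesOver (Ideal.span {(p : ℤ)}) (𝓞 L)).Finite :=
    Algebra.QuasiFinite.finite_primesOver (R := ℤ) (S := 𝓞 L) _
  refine h1.subset ?_
  rintro P ⟨hPp, hpP, -⟩
  exact ⟨hPp, ⟨(deu_under_int hp hPp hpP).symm⟩⟩

/-- **Deuring's count** (upper bound). -/
theorem deu_card_frobSet_mul_le {p : ℕ} (hp : p.Prime)
    (hunr : ∀ P : Ideal (𝓞 L), P.IsPrime → (p : 𝓞 L) ∈ P → P.ramificationIdx ℤ = 1)
    (g : L ≃ₐ[ℚ] L) :
    Nat.card (FrobSet L g p) * orderOf g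
      ≤ Nat.card (Subgroup.centralizer ({g} : Set (L ≃ₐ[ℚ] L))) := by
  classical
  by_cases hne : (FrobSet L g p).Nonempty
  · obtain ⟨P₀, hP₀⟩ := hne
    have hex : ∀ P : FrobSet L g p, ∃ σ : L ≃ₐ[ℚ] L, σ * g = g * σ ∧ (P : Ideal (𝓞 L)) = σ • P₀ :=
      fun P => deu_exists_centralizer_smul hp hunr hP₀ P.2
    choose s hs1 hs2 using hex
    have hcent : ∀ P : FrobSet L g p, ∀ z : Subgroup.zpowers g,
        s P * (z : L ≃ₐ[ℚ] L) ∈ Subgroup.centralizer ({g} : Set (L ≃ₐ[ℚ] L)) := by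
      intro P z
      rw [Subgroup.mem_centralizer_singleton_iff]
      obtain ⟨k, hk⟩ := Subgroup.mem_zpowers_iff.mp z.2
      have hzg : (z : L ≃ₐ[ℚ] L) * g = g * z := by
        rw [← hk]
        exact ((Commute.refl g).zpow_left k).eq
      calc s P * ↑z * g = s P * (↑z * g) := mul_assoc _ _ _
        _ = s P * (g * ↑z) := by rw [hzg]
        _ = s P * g * ↑z := (mul_assoc _ _ _).symm
        _ = g * s P * ↑z := by rw [hs1 P]
        _ = g * (s P * ↑z) := mul_assoc _ _ _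
    let f : FrobSet L g p × Subgroup.zpowers g →
        Subgroup.centralizer ({g} : Set (L ≃ₐ[ℚ] L)) := fun x => ⟨s x.1 * x.2, hcent x.1 x.2⟩
    have hf : Function.Injective f := by
      rintro ⟨P, z⟩ ⟨P', z'⟩ h
      have h1 : s P * (z : L ≃ₐ[ℚ] L) = s P' * (z' : L ≃ₐ[ℚ] L) := congrArg Subtype.val h
      have h2 : (P : Ideal (𝓞 L)) = (P' : Ideal (𝓞 L)) := by
        calc (P : Ideal (𝓞 L)) = s P • P₀ := hs2 P
          _ = s P • ((z : L ≃ₐ[ℚ] L) • P₀) := by rw [deu_zpowers_smul hp hP₀ z.2]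
          _ = (s P * (z : L ≃ₐ[ℚ] L)) • P₀ := (mul_smul _ _ _).symm
          _ = (s P' * (z' : L ≃ₐ[ℚ] L)) • P₀ := by rw [h1]
          _ = s P' • ((z' : L ≃ₐ[ℚ] L) • P₀) := mul_smul _ _ _
          _ = s P' • P₀ := by rw [deu_zpowers_smul hp hP₀ z'.2]
          _ = (P' : Ideal (𝓞 L)) := (hs2 P').symm
      have h3 : P = P' := Subtype.ext h2
      subst h3
      have h4 : (z : L ≃ₐ[ℚ] L) = (z' : L ≃ₐ[ℚ] L) := mul_left_cancel h1
      rw [Subtype.ext h4]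
    haveI : Finite (FrobSet L g p) := (deu_finite_frobSet hp g).to_subtype
    have h5 := Nat.card_le_card_of_injective f hf
    rw [Nat.card_prod, Nat.card_zpowers] at h5
    exact h5
  · rw [Set.not_nonempty_iff_eq_empty] at hne
    rw [hne]
    simp

end count

end Fermat.Agent.S48Cheb
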