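import Fermat.Agent.S48.Cheb.Defs
import Fermat.Agent.S48.Cheb.Analytic

/-!
# S48 P5 seat (A): equidistribution up to inversion (helper61)

`equidistInv : EquidistInv`, from `S48/Cheb/Analytic.lean` (`rayD_add_inv_ge`): the real parts of
the character sums `∑_𝔮 ψ(cls 𝔮) N𝔮^(-s)` are bounded (above by `F4Ray.rayLBound` and the Euler
product, below because the trivial class has at least its share), and real parts are enough for
`D_a + D_{a⁻¹}`.
-/

set_option autoImplicit false

open NumberField IsDedekindDomain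

namespace Fermat.Agent.S48Cheb

open Fermat.Agent.FrobDensity (normWeight)

theorem equidistInv : EquidistInv := by
  classical
  intro F _ _ m G _ _ cls hRC htight a
  have h1 : ∀ (b : G) (s : ℝ), rayD F m cls b s = ∑' 𝔮 : HeightOneSpectrum (𝓞 F),
      if 𝔮.asIdeal ⊔ m = ⊤ ∧ cls 𝔮.asIdeal = b then normWeight F s 𝔮.asIdeal else 0 := by
    intro b s
    unfold rayD
    refine tsum_congr fun 𝔮 => ?_
    congr
  have htight' : ∃ B δ : ℝ, 0 < δ ∧ ∀ s : ℝ, 1 < s → s < 1 + δ →
      (1 / (Fintype.card G : ℝ)) * Real.log (1 / (s - 1)) - B ≤ rayD F m cls 1 s := by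
    obtain ⟨B, δ, hδ, hB⟩ := htight
    refine ⟨B, δ, hδ, fun s hs hsδ => ?_⟩
    rw [h1]
    refine le_of_le_of_eq (hB s hs hsδ) (tsum_congr fun 𝔮 => ?_)
    congr
  obtain ⟨B, δ, hδ, hB⟩ := rayD_add_inv_ge hRC htight' a
  refine ⟨B, δ, hδ, fun s hs hsδ => ?_⟩
  have hs1 : (1 : ℝ) < s := hs
  refine le_of_le_of_eq (hB s hs hsδ) ?_
  have hsum : ∀ b : G, Summable fun 𝔮 : HeightOneSpectrum (𝓞 F) =>
      if 𝔮.asIdeal ⊔ m = ⊤ ∧ cls 𝔮.asIdeal = b then normWeight F s 𝔮.asIdeal else 0 := by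
    intro b
    refine Summable.of_nonneg_of_le (fun 𝔮 => ?_) (fun 𝔮 => ?_)
      (Fermat.Agent.FrobDensity.summable_normWeight_prime F hs1)
    · split_ifs
      · exact Fermat.Agent.FrobDensity.normWeight_nonneg s _
      · exact le_rfl
    · split_ifs
      · exact le_rfl
      · exact Fermat.Agent.FrobDensity.normWeight_nonneg s _
  rw [h1, h1, ← (hsum a).tsum_add (hsum a⁻¹)]

end Fermat.Agent.S48Cheb
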