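import Fermat.Agent.S48.Cheb.Equidist
import Fermat.Agent.S48.Cheb.ClsT
import Fermat.Agent.S48.Cheb.CycArtin
import Fermat.Agent.S48.Cheb.CycDensity
import Fermat.Agent.S48.Cheb.Crossing
import Fermat.Agent.S48.Cheb.CycField
import Fermat.Agent.S48.Cheb.Cyclic
import Fermat.Agent.S48.Cheb.Deuring
import Fermat.Agent.S48.Cheb.Consumer

/-!
# S48 (P5): Chebotarev's density theorem up to inversion (lower bound) — assembly
-/

set_option autoImplicit false

namespace Fermat.Agent.S48Cheb

theorem cycDensity : CycDensity := cycDensity_of equidistInv clsTStatement cycArtin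

theorem crossing : Crossing := crossing_of cycDensity cycArtin

theorem cyclicCheb : CyclicCheb := cyclicCheb_of crossing cycField

theorem galoisCheb : GaloisCheb := galoisCheb_of cyclicCheb

/-- **(P5)** Chebotarev's density theorem, up to inversion, lower bound. -/
theorem chebotarevStatement : Fermat.Agent.S48.ChebotarevStatement :=
  chebotarevStatement_of galoisCheb

end Fermat.Agent.S48Cheb
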